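import Mathlib

/-! GT-BRG, file `Approx` (pure valuation theory): approximation for finitely many independent
valuation subrings, normalisation of the residues, transport of maximal ideals. -/

set_option autoImplicit false

namespace Fermat.Agent.GT.Brg

section helpers

variable {K : Type*} [Field K] {V : ValuationSubring K}

theorem Approx_mul_mem {a y : K} (ha : a ∈ V) (hy : y ∈ V.nonunits) : a * y ∈ V.nonunits := by
  rw [ValuationSubring.mem_nonunits_iff] at hy ⊢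
  rw [map_mul]
  calc V.valuation a * V.valuation y ≤ 1 * V.valuation y :=
        mul_le_mul_left ((V.valuation_le_one_iff a).2 ha) _
    _ = V.valuation y := one_mul _
    _ < 1 := hy

theorem Approx_val_eq_one {x : K} (hx : x ∈ V) (hx' : x ∉ V.nonunits) : V.valuation x = 1 := by
  rw [ValuationSubring.mem_nonunits_iff, not_lt] at hx'
  exact le_antisymm ((V.valuation_le_one_iff x).2 hx) hx'

theorem Approx_val_eq_one_of_inv {x : K} (hx : x ∈ V) (hx' : x⁻¹ ∈ V) (hx0 : x ≠ 0) :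
    V.valuation x = 1 := by
  have h1 := (V.valuation_le_one_iff x).2 hx
  have h2 := (V.valuation_le_one_iff x⁻¹).2 hx'
  rw [map_inv₀] at h2
  have hv : V.valuation x ≠ 0 := (Valuation.ne_zero_iff _).2 hx0
  refine le_antisymm h1 ?_
  exact (inv_le_one₀ (zero_lt_iff.2 hv)).1 h2

/-- `x ≡ y` and `y` a unit: `x` is a unit. -/
theorem Approx_val_of_sub {x y : K} (h : x - y ∈ V.nonunits) (hy : V.valuation y = 1) :
    V.valuation x = 1 := by
  rw [ValuationSubring.mem_nonunits_iff, ← hy] at h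
  rw [Valuation.map_eq_of_sub_lt _ h, hy]

theorem Approx_mem_of_val {x : K} (h : V.valuation x = 1) : x ∈ V :=
  (V.valuation_le_one_iff x).1 h.le

theorem Approx_inv_mem_of_val {x : K} (h : V.valuation x = 1) : x⁻¹ ∈ V := by
  rw [← V.valuation_le_one_iff, map_inv₀, h, inv_one]

theorem Approx_cong_pow {x y : K} (hx : x ∈ V) (hy : y ∈ V) (h : x - y ∈ V.nonunits) (m : ℕ) :
    x ^ m - y ^ m ∈ V.nonunits := by
  induction m with
  | zero => simp
  | succ m ih =>
    have : x ^ (m + 1) - y ^ (m + 1) = x * (x ^ m - y ^ m) + y ^ m * (x - y) := by ring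
    rw [this]
    exact add_mem (Approx_mul_mem hx ih) (Approx_mul_mem (pow_mem hy m) h)

end helpers

variable {F : Type*} [Field F] {ι : Type*} [Finite ι] {𝒪 : ι → ValuationSubring F}

/-- `E i = ∏_{j ≠ i} e i j` is a unit at `i` and lies in the maximal ideal at `j ≠ i`;
`z = (∑ β i E i) / ∑ E i`. -/
theorem exists_approx
    (hsep : ∀ i j, i ≠ j → ∃ e : F, (∀ k, e ∈ 𝒪 k) ∧ e ∈ (𝒪 j).nonunits ∧ e ∉ (𝒪 i).nonunits)
    (β : ι → F) (hβ : ∀ i k, β i ∈ 𝒪 k) : ∃ z : F, ∀ i, z - β i ∈ (𝒪 i).nonunits := by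
  classical
  cases nonempty_fintype ι
  have hsep' : ∀ i j, ∃ e : F, i ≠ j →
      (∀ k, e ∈ 𝒪 k) ∧ e ∈ (𝒪 j).nonunits ∧ e ∉ (𝒪 i).nonunits := by
    intro i j
    by_cases h : i = j
    · exact ⟨0, fun h' => absurd h h'⟩
    · obtain ⟨e, he⟩ := hsep i j h
      exact ⟨e, fun _ => he⟩
  choose e he using hsep'
  let E : ι → F := fun i => ∏ j ∈ Finset.univ.erase i, e i j
  have hne : ∀ {i j : ι}, j ∈ Finset.univ.erase i → i ≠ j := fun hj => (Finset.mem_erase.1 hj).1.symm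
  have hE_mem : ∀ i k, E i ∈ 𝒪 k := fun i k => prod_mem fun j hj => (he i j (hne hj)).1 k
  have hE_unit : ∀ i, (𝒪 i).valuation (E i) = 1 := by
    intro i
    show (𝒪 i).valuation (∏ j ∈ Finset.univ.erase i, e i j) = 1
    rw [map_prod]
    refine Finset.prod_eq_one fun j hj => ?_
    exact Approx_val_eq_one ((he i j (hne hj)).1 i) (he i j (hne hj)).2.2
  have hE_nu : ∀ i j, i ≠ j → E i ∈ (𝒪 j).nonunits := by
    intro i j hij
    have hj : j ∈ Finset.univ.erase i := Finset.mem_erase.2 ⟨hij.symm, Finset.mem_univ j⟩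
    show ∏ j ∈ Finset.univ.erase i, e i j ∈ (𝒪 j).nonunits
    rw [← Finset.mul_prod_erase _ _ hj, mul_comm]
    refine Approx_mul_mem (prod_mem fun k hk => ?_) (he i j hij).2.1
    exact (he i k (hne (Finset.mem_of_mem_erase hk))).1 j
  set S : F := ∑ i, E i with hS
  have hS_unit : ∀ k, (𝒪 k).valuation S = 1 := by
    intro k
    refine Approx_val_of_sub (y := E k) ?_ (hE_unit k)
    rw [hS, ← Finset.add_sum_erase _ _ (Finset.mem_univ k), add_sub_cancel_left]
    exact sum_mem fun i hi => hE_nu i k (Finset.mem_erase.1 hi).1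
  refine ⟨(∑ i, β i * E i) / S, fun k => ?_⟩
  have hS0 : S ≠ 0 := by
    intro h0
    have := hS_unit k
    rw [h0, map_zero] at this
    exact zero_ne_one this
  have e1 : (∑ i, β i * E i) / S - β k = S⁻¹ * ∑ i ∈ Finset.univ.erase k, (β i - β k) * E i := by
    have e2 : ∑ i ∈ Finset.univ.erase k, (β i - β k) * E i = ∑ i, (β i - β k) * E i := by
      rw [← Finset.add_sum_erase _ _ (Finset.mem_univ k), sub_self, zero_mul, zero_add]
    rw [e2]
    simp only [sub_mul, Finset.sum_sub_distrib, ← Finset.mul_sum]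
    rw [← hS]
    field_simp
  rw [e1]
  refine Approx_mul_mem (Approx_inv_mem_of_val (hS_unit k)) (sum_mem fun i hi => ?_)
  exact Approx_mul_mem (sub_mem (hβ i k) (hβ k k)) (hE_nu i k (Finset.mem_erase.1 hi).1)

/-- If `w ≡ b i` at `𝒪 i` and `b i = β i ^ n` with units `β i` then `w / z ^ n ≡ 1` at all `𝒪 i`
for a suitable `z`. -/
theorem exists_normalise [Nonempty ι]
    (hsep : ∀ i j, i ≠ j → ∃ e : F, (∀ k, e ∈ 𝒪 k) ∧ e ∈ (𝒪 j).nonunits ∧ e ∉ (𝒪 i).nonunits)
    {n : ℕ} {w : F} (β : ι → F) (hβ : ∀ i k, β i ∈ 𝒪 k) (hβ' : ∀ i, (β i)⁻¹ ∈ 𝒪 i)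
    (hβ0 : ∀ i, β i ≠ 0)
    (hw : ∀ i, w - β i ^ n ∈ (𝒪 i).nonunits) :
    ∃ z : F, z ≠ 0 ∧ ∀ i, w / z ^ n - 1 ∈ (𝒪 i).nonunits := by
  obtain ⟨z, hz⟩ := exists_approx hsep β hβ
  have hzu : ∀ i, (𝒪 i).valuation z = 1 := fun i =>
    Approx_val_of_sub (hz i) (Approx_val_eq_one_of_inv (hβ i i) (hβ' i) (hβ0 i))
  have hz0 : z ≠ 0 := by
    obtain ⟨i⟩ := ‹Nonempty ι›
    intro h0
    have := hzu i
    rw [h0, map_zero] at this
    exact zero_ne_one this
  refine ⟨z, hz0, fun i => ?_⟩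
  have e1 : w / z ^ n - 1 = (z ^ n)⁻¹ * ((w - β i ^ n) - (z ^ n - β i ^ n)) := by
    field_simp
    ring
  rw [e1]
  refine Approx_mul_mem ?_ (sub_mem (hw i)
    (Approx_cong_pow (Approx_mem_of_val (hzu i)) (hβ i i) (hz i) n))
  rw [← inv_pow]
  exact pow_mem (Approx_inv_mem_of_val (hzu i)) n

/-- Transport of the maximal ideal along a field homomorphism. -/
theorem map_mem_nonunits {F' : Type*} [Field F'] (φ : F →+* F') {V : ValuationSubring F}
    {V' : ValuationSubring F'} (hmono : ∀ x ∈ V, φ x ∈ V') {π : F} (hπ0 : π ≠ 0)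
    (hπ : φ π ∈ V'.nonunits)
    {e : ℕ} (hnilp : ∀ x ∈ V.nonunits, x ^ e / π ∈ V) {x : F} (hx : x ∈ V.nonunits) :
    φ x ∈ V'.nonunits := by
  have h1 : φ x ^ e ∈ V'.nonunits := by
    have : φ x ^ e = φ (x ^ e / π) * φ π := by
      rw [← map_pow, ← map_mul, div_mul_cancel₀ _ hπ0]
    rw [this]
    exact Approx_mul_mem (hmono _ (hnilp x hx)) hπ
  rw [ValuationSubring.mem_nonunits_iff] at h1 ⊢
  rw [map_pow] at h1
  by_contra hcon
  rw [not_lt] at hcon
  exact absurd h1 (not_lt.2 (one_le_pow₀ hcon))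

end Fermat.Agent.GT.Brg
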