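import Fermat.Agent.GT.Iface
import Fermat.Agent.GT.Abs.Defs

/-!
# Project GT, module BRG (bridge): definitions

`CoreKI` (Kummer classes over `Q̄`, level `q² M0`) is deduced from the geometric statements over a
number field `L` inside the inertia field of `A`, at the auxiliary level `q² N1`, `N1 = 4 M0`
(`q` odd) or `9 M0` (`q = 2`).  This file fixes what BRG consumes from VAL (layer 5) and GLUE.
-/

set_option autoImplicit false
set_option synthInstance.maxHeartbeats 400000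

noncomputable section

namespace Fermat.Agent.GT.Brg

open Fermat.Agent.GR Fermat.Agent.GR.E Fermat.Agent.GT ModularCurve AlgebraicCurve
  IntermediateField

/-- The auxiliary level `N1 = 4 M0` (`q` odd), `9 M0` (`q = 2`). -/
def auxLevel (q M0 : ℕ) : ℕ := if q = 2 then 9 * M0 else 4 * M0

/-- `x` lies in the inertia field of `A`. -/
def InertFixedElt (A : ValuationSubring Qb) (x : Qb) : Prop :=
  ∀ τ : Qb ≃ₐ[ℚ] Qb, τ ∈ A.inertiaSubgroupIn ℚ → τ x = x

/-- `L` is stable under the decomposition group of `A`. -/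
def DStable (A : ValuationSubring Qb) (L : IntermediateField ℚ Qb) : Prop :=
  ∀ τ : Qb ≃ₐ[ℚ] Qb, τ ∈ A.decompositionSubgroup ℚ → ∀ x : Qb, x ∈ L → τ x ∈ L

/-- The fields over which the geometry is done: number fields inside the inertia field of `A`
which are stable under the decomposition group (so that they carry a Frobenius lift) and contain a
given finite set `S` (chosen by the geometry, e.g. roots of unity of order prime to `q` making the
crossing points rational). -/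
structure GoodField (A : ValuationSubring Qb) (S : Finset Qb) (L : IntermediateField ℚ Qb) :
    Prop where
  fin : FiniteDimensional ℚ L
  inert : InertFixed A L
  dstable : DStable A L
  big : ∀ x ∈ S, x ∈ L

/-- The valuation ring `A ∩ L`. -/
abbrev RL (A : ValuationSubring Qb) (L : IntermediateField ℚ Qb) : ValuationSubring L :=
  A.comap (algebraMap L Qb)

/-- The constant `a ∈ L` as an element of `FF L N`. -/
abbrev cL (L : IntermediateField ℚ Qb) (N : ℕ) (a : L) : FF L N := algebraMap L (FF L N) a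

/-- The constant `r ∈ A ∩ L` as an element of `FF L N`. -/
abbrev cR (A : ValuationSubring Qb) (L : IntermediateField ℚ Qb) (N : ℕ) (r : RL A L) : FF L N :=
  algebraMap (RL A L) (FF L N) r

/-- Both norms of `x ∈ FF Q̄ (q² N1)` to level `q N1` are trivial Kummer classes. -/
def NormTrivQb (q N1 n : ℕ) [NeZero q] (ζ : Qbˣ) (x : FF Qb (q ^ 2 * N1)) : Prop :=
  KummerEquiv (q * N1) n 1 (normT q ζ (x : LaurentSeries Qb)) ∧
  KummerEquiv (q * N1) n 1
    ((normFF Qb (N := q * N1) (N' := q ^ 2 * N1) ⟨q, by ring⟩ x : FF Qb (q * N1)) :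
      LaurentSeries Qb)

/-- Both norms of `x ∈ FF L (q² N1)` to level `q N1` are of the form `c z ^ n` with `c ∈ L`,
`z ∈ FF L (q N1)`. -/
def NormTriv (q N1 n : ℕ) [NeZero q] (ζ : Qbˣ) (L : IntermediateField ℚ Qb)
    (x : FF L (q ^ 2 * N1)) : Prop :=
  (∃ (c : L) (z : FF L (q * N1)), c ≠ 0 ∧ z ≠ 0 ∧
    normT q ζ (coeffMap (algebraMap L Qb) (x : LaurentSeries L)) =
      coeffMap (algebraMap L Qb) (HahnSeries.C c * (z : LaurentSeries L) ^ n)) ∧
  (∃ (c : L) (z : FF L (q * N1)), c ≠ 0 ∧ z ≠ 0 ∧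
    ((normFF Qb (N := q * N1) (N' := q ^ 2 * N1) ⟨q, by ring⟩
      (mapFF (algebraMap L Qb) (q ^ 2 * N1) x) : FF Qb (q * N1)) : LaurentSeries Qb) =
      coeffMap (algebraMap L Qb) (HahnSeries.C c * (z : LaurentSeries L) ^ n))

/-- What BRG consumes from VAL and GLUE, for a family `𝒪 L i` (`i = ∞, mid, 0`) of valuation
subrings of `FF L (q² N1)`, `L` running through the good fields.  `c1 = (q + 1) (q - 1)`,
`c2 = q² - 1` in the blueprint. -/
structure GeoFam (q N1 c1 c2 : ℕ) [NeZero q] (A : ValuationSubring Qb) (ζ : Qbˣ) (S : Finset Qb)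
    (𝒪 : ∀ L : IntermediateField ℚ Qb, Fin 3 → ValuationSubring (FF L (q ^ 2 * N1))) : Prop where
  /-- (VAL) -/
  vert : ∀ L : IntermediateField ℚ Qb, GoodField A S L →
    VertFam (R := RL A L) (F := FF L (q ^ 2 * N1)) ((q : ℕ) : RL A L) (𝒪 L)
  /-- (VAL) constants -/
  const : ∀ L : IntermediateField ℚ Qb, GoodField A S L → ∀ (i : Fin 3) (r : RL A L),
    cR A L (q ^ 2 * N1) r ∈ 𝒪 L i
  /-- (VAL) the three valuation rings are pairwise independent -/
  sep : ∀ L : IntermediateField ℚ Qb, GoodField A S L → ∀ i j : Fin 3, i ≠ j →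
    ∃ e : FF L (q ^ 2 * N1), (∀ k, e ∈ 𝒪 L k) ∧ e ∈ (𝒪 L j).nonunits ∧ e ∉ (𝒪 L i).nonunits
  /-- (VAL) compatibility with the enlargement of `L` -/
  mono : ∀ L L' : IntermediateField ℚ Qb, GoodField A S L → GoodField A S L' → ∀ h : L ≤ L', ∀ i : Fin 3, ∀ x ∈ 𝒪 L i,
    mapFF (IntermediateField.inclusion h).toRingHom (q ^ 2 * N1) x ∈ 𝒪 L' i
  /-- (VAL, layer 5) vertical multiplicities and residues -/
  val5 : ∀ L : IntermediateField ℚ Qb, GoodField A S L → ∀ n : ℕ, ¬ q ∣ n → ∀ u : FF L (q ^ 2 * N1), u ≠ 0 →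
    NormTriv q N1 n ζ L u →
    ∃ (a : L) (z : FF L (q ^ 2 * N1)) (b : Fin 3 → RL A L), a ≠ 0 ∧ z ≠ 0 ∧ (∀ i, IsUnit (b i)) ∧
      ∀ i : Fin 3, cL L (q ^ 2 * N1) a * u ^ c1 * z ^ n - cR A L (q ^ 2 * N1) (b i) ∈ (𝒪 L i).nonunits
  /-- (GLUE) the geometric core -/
  geo : ∀ L : IntermediateField ℚ Qb, GoodField A S L → ∀ n : ℕ, ¬ q ∣ n → ∀ w : FF L (q ^ 2 * N1),
    (∀ i : Fin 3, w - 1 ∈ (𝒪 L i).nonunits) → DivisibleAtPlaces (RL A L) n w → NormTriv q N1 n ζ L w →
    KummerEquiv (q ^ 2 * N1) n 1 (coeffMap (algebraMap L Qb) (w : LaurentSeries L) ^ c2)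

/-- THE INTERFACE GEO → BRG. -/
def GeoAll : Prop :=
  ∀ (q : ℕ) [NeZero q], q.Prime → ∀ N1 : ℕ, N1 ≠ 0 → ¬ q ∣ N1 →
    ((q = 2 ∧ 9 ∣ N1) ∨ (q ≠ 2 ∧ 4 ∣ N1)) →
    ∃ c1 c2 : ℕ, 0 < c1 ∧ 0 < c2 ∧
      ∀ A : ValuationSubring Qb, A.LiesOverPrime q → ∀ ζ : Qbˣ, IsPrimitiveRoot ζ q →
        ∃ (S : Finset Qb) (𝒪 : _), (∀ x ∈ S, InertFixedElt A x) ∧ GeoFam q N1 c1 c2 A ζ S 𝒪

end Fermat.Agent.GT.Brg
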