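import Fermat.Agent.GT.Brg.Main
import Fermat.Agent.GT.Val.Conc.Fam
import Fermat.Agent.GT.Glue.Top
import Fermat.Agent.GT.Loc.Conc.Hred

/-!
# GT-BRG, file `Assemble`: `GeoAll` from the concrete exports of VAL, GLUE and LOC

`LocAll` is the complete list of what is still consumed: for every good field `L` a base function
`t` of level `N1` with `BaseHyp`, `TPar` for `t` and `t⁻¹` (VAL, `Val/Conc/Par.lean`) and `Glue.LocIn` for
`t` and `t⁻¹` (LOC, `Loc/Conc/Good.lean`).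
-/

set_option autoImplicit false
set_option synthInstance.maxHeartbeats 400000

noncomputable section

namespace Fermat.Agent.GT.Brg

open Fermat.Agent.GR Fermat.Agent.GR.E Fermat.Agent.GT Fermat.Agent.GT.EMB ModularCurve
  AlgebraicCurve IntermediateField Fermat.Agent.GT.Val.Conc

/-- What is consumed for one good field. -/
structure LocOne (q N1 : ℕ) [NeZero q] [NeZero (q * N1)] [NeZero (q ^ 2 * N1)]
    (A : ValuationSubring Qb) (ζ : Qbˣ) (L : IntermediateField ℚ Qb)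
    [IsDiscreteValuationRing (RL A L)] [IsDiscreteValuationRing (RL A (Lz L ζ))]
    (t : FF L N1) : Prop where
  base : Val.BaseHyp (RL A L) q N1 ((q : ℕ) : RL A L)
  par : Val.TPar (RL A L) q N1 ((q : ℕ) : RL A L) t
  par' : Val.TPar (RL A L) q N1 ((q : ℕ) : RL A L) t⁻¹
  loc : Glue.LocIn (RL A L) (RL A (Lz L ζ)) q N1 (zetaU L ζ) ((q : ℕ) : RL A L) t
  loc' : Glue.LocIn (RL A L) (RL A (Lz L ζ)) q N1 (zetaU L ζ) ((q : ℕ) : RL A L) t⁻¹

/-- THE INTERFACE (VAL-Par + LOC) → Assemble. -/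
def LocAll : Prop :=
  ∀ (q N1 : ℕ) [NeZero q] [NeZero N1] [NeZero (q * N1)] [NeZero (q ^ 2 * N1)], q.Prime →
    ¬ q ∣ N1 → ((q = 2 ∧ 9 ∣ N1) ∨ (q ≠ 2 ∧ 4 ∣ N1)) →
    ∀ A : ValuationSubring Qb, A.LiesOverPrime q → ∀ ζ : Qbˣ, IsPrimitiveRoot ζ q →
      ∃ S : Finset Qb, (∀ x ∈ S, InertFixedElt A x) ∧
        ∀ L : IntermediateField ℚ Qb, GoodField A S L →
          ∀ [IsDiscreteValuationRing (RL A L)] [IsDiscreteValuationRing (RL A (Lz L ζ))],
            ∃ t : FF L N1, LocOne q N1 A ζ L t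

theorem geoAll_of_locAll (H : LocAll) : GeoAll := by
  intro q _ hq N1 hN1 hqN hcase
  have : NeZero N1 := ⟨hN1⟩
  have : NeZero (q * N1) := ⟨mul_ne_zero hq.ne_zero hN1⟩
  have : NeZero (q ^ 2 * N1) := ⟨mul_ne_zero (pow_ne_zero 2 hq.ne_zero) hN1⟩
  refine ⟨(q + 1) * (q - 1), q ^ 2 - 1, Nat.mul_pos (Nat.succ_pos _) (Nat.sub_pos_of_lt hq.one_lt),
    Nat.sub_pos_of_lt (Nat.one_lt_pow (by norm_num) hq.one_lt), ?_⟩
  intro A hA ζ hζ
  obtain ⟨S, hS, HL⟩ := H q N1 hq hqN hcase A hA ζ hζ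
  refine ⟨S, fam q N1 A ζ, hS, geoFam hq hA hζ hqN S (q ^ 2 - 1) ?_ ?_⟩
  · intro L hG _
    have := hG.fin
    have := dvr_RLz hq hA L ζ
    obtain ⟨t, Z⟩ := HL L hG
    exact ⟨Z.base, t, Z.par⟩
  · intro L hG n hn w hw hdiv hNT
    have := hG.fin
    have := dvr_RL hq hA L
    have := dvr_RLz hq hA L ζ
    obtain ⟨t, Z⟩ := HL L hG
    have C := ctx (N1 := N1) hq hA hζ hqN L hG.inert
    rw [fam_eq] at hw
    exact Glue.geo_conc hq hA ζ L C Z.base Z.par Z.par'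
      (Loc.normHyp_conc C (algebraMap (Lz L ζ) Qb) rfl) Z.loc Z.loc'
      (Loc.hN1_conc hq hN1 hqN) (Loc.hN2_conc hq hN1 hqN ζ hζ) n hn w hw hdiv hNT

/-- `CoreKI` from `LocAll`. -/
theorem coreKI_of_locAll (H : LocAll) : CoreKI := coreKI_of_geoAll (geoAll_of_locAll H)

end Fermat.Agent.GT.Brg
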