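import Fermat.Agent.GT.Brg.Defs
import Fermat.Agent.GT.EMB.Norm2
import Fermat.Agent.GR.C.LinDisj
import Fermat.Agent.GR.F.FormalNorm

/-! GT-BRG, file `Descent`: the two norms of an element defined over `L` are defined over `L`;
`n`-th roots and constants descend to `L` (normalisation of the leading coefficient). -/

set_option autoImplicit false
set_option synthInstance.maxHeartbeats 400000

noncomputable section

namespace Fermat.Agent.GT.Brg

open Fermat.Agent.GR Fermat.Agent.GR.E Fermat.Agent.GT Fermat.Agent.GT.EMB ModularCurve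
  AlgebraicCurve IntermediateField

theorem Descent_isGalois (L : IntermediateField ℚ Qb) : IsGalois L Qb := by
  have h0 : Algebra.IsAlgebraic ℚ Qb := AlgebraicClosure.isAlgebraic ℚ
  have h1 : Algebra.IsAlgebraic L Qb :=
    Algebra.IsAlgebraic.tower_top (K := ℚ) (L := L) (A := Qb)
  have h2 : IsAlgClosure L Qb := ⟨inferInstance, h1⟩
  exact IsAlgClosure.isGalois L Qb

/-- `σ ∈ Gal(Q̄ / L)` fixes the series coming from `L`. -/
theorem Descent_coeffMap_coeffMap (L : IntermediateField ℚ Qb) (σ : Qb ≃ₐ[L] Qb)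
    (x : LaurentSeries L) :
    coeffMap (σ : Qb →+* Qb) (coeffMap (algebraMap L Qb) x) = coeffMap (algebraMap L Qb) x := by
  ext k
  simp only [coeffMap_coeff]
  exact σ.commutes _

theorem Descent_coeffMap_C {A B : Type*} [CommRing A] [CommRing B] (φ : A →+* B) (a : A) :
    coeffMap φ (HahnSeries.C a : LaurentSeries A) = HahnSeries.C (φ a) :=
  coeffMap_single φ 0 a

/-- A series over `Q̄` which is fixed coefficientwise by `Gal(Q̄ / L)` comes from `L`. -/
theorem exists_coeffMap_of_fixed (L : IntermediateField ℚ Qb) (f : LaurentSeries Qb)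
    (h : ∀ σ : Qb ≃ₐ[L] Qb, coeffMap (σ : Qb →+* Qb) f = f) :
    ∃ f₀ : LaurentSeries L, coeffMap (algebraMap L Qb) f₀ = f := by
  have := Descent_isGalois L
  refine C.exists_coeffMap_eq f fun k => ?_
  rw [InfiniteGalois.mem_range_algebraMap_iff_fixed]
  intro σ
  have h1 := congrArg (fun g : LaurentSeries Qb => g.coeff k) (h σ)
  exact h1

/-- `normT` of a series over `L` is a series over `L` (`coeffMap_normT`,
`normT_eq_of_isPrimitiveRoot`). -/
theorem normT_defOver {q : ℕ} [NeZero q] {ζ : Qbˣ} (hζ : IsPrimitiveRoot ζ q)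
    (L : IntermediateField ℚ Qb) (x : LaurentSeries L) :
    ∃ y : LaurentSeries L, coeffMap (algebraMap L Qb) y =
      normT q ζ (coeffMap (algebraMap L Qb) x) := by
  refine exists_coeffMap_of_fixed L _ fun σ => ?_
  rw [coeffMap_normT, Descent_coeffMap_coeffMap]
  refine normT_eq_of_isPrimitiveRoot q _ ζ ?_ hζ _
  exact hζ.map_of_injective (Units.map_injective (σ : Qb →+* Qb).injective)

/-- `normT` of an element of `FF L (q² N1)` lies in `FF L (q N1)`. -/
theorem normT_defOver_FF {q N1 : ℕ} [NeZero q] (hq : q.Prime) (hN1 : N1 ≠ 0) (hqN : ¬ q ∣ N1)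
    {ζ : Qbˣ} (hζ : IsPrimitiveRoot ζ q) (L : IntermediateField ℚ Qb) (x : FF L (q ^ 2 * N1)) :
    ∃ y : FF L (q * N1), coeffMap (algebraMap L Qb) (y : LaurentSeries L) =
      normT q ζ (coeffMap (algebraMap L Qb) (x : LaurentSeries L)) := by
  obtain ⟨y, hy⟩ := normT_defOver hζ L (x : LaurentSeries L)
  refine ⟨⟨y, C.mem_FF_of_coeffMap_mem (Ω := Qb) ?_⟩, hy⟩
  rw [hy]
  exact normT_mem_FF_of_sq hq hN1 hqN ζ hζ (E.coeffMap_mem_FF _ _ x.2)

/-- `normFF` of an element of `FF L (q² N1)` lies in `FF L (q N1)` (`normFF_eq_prod`,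
`coeffMap_iotaMid`: `σ` permutes the factors). -/
theorem normFF_defOver_FF {q N1 : ℕ} [NeZero q] (hq : q.Prime) (hN1 : N1 ≠ 0) (hqN : ¬ q ∣ N1)
    (L : IntermediateField ℚ Qb) (x : FF L (q ^ 2 * N1)) :
    ∃ y : FF L (q * N1), coeffMap (algebraMap L Qb) (y : LaurentSeries L) =
      ((normFF Qb (N := q * N1) (N' := q ^ 2 * N1) ⟨q, by ring⟩
        (mapFF (algebraMap L Qb) (q ^ 2 * N1) x) : FF Qb (q * N1)) : LaurentSeries Qb) := by
  have : NeZero (q ^ 2 * N1) := ⟨mul_ne_zero (pow_ne_zero _ hq.ne_zero) hN1⟩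
  obtain ⟨ζ₀, hζ₀⟩ := HasEnoughRootsOfUnity.exists_primitiveRoot Qb q
  obtain ⟨ζ, rfl⟩ := hζ₀.isUnit (NeZero.ne q)
  rw [IsPrimitiveRoot.coe_units_iff] at hζ₀
  obtain ⟨y, hy⟩ := exists_coeffMap_of_fixed L
    ((normFF Qb (N := q * N1) (N' := q ^ 2 * N1) ⟨q, by ring⟩
        (mapFF (algebraMap L Qb) (q ^ 2 * N1) x) : FF Qb (q * N1)) : LaurentSeries Qb) (by
    intro σ
    have hζ' : IsPrimitiveRoot (Units.map ((σ : Qb →+* Qb) : Qb →* Qb) ζ) q :=
      hζ₀.map_of_injective (Units.map_injective (σ : Qb →+* Qb).injective)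
    have hfix : mapFF (σ : Qb →+* Qb) (q ^ 2 * N1) (mapFF (algebraMap L Qb) (q ^ 2 * N1) x) =
        mapFF (algebraMap L Qb) (q ^ 2 * N1) x :=
      Subtype.ext (Descent_coeffMap_coeffMap L σ _)
    conv_lhs => rw [normFF_eq_prod hq hqN ζ hζ₀]
    rw [normFF_eq_prod hq hqN _ hζ', map_mul, map_prod]
    congr 1
    · exact Descent_coeffMap_coeffMap L σ _
    · refine Finset.prod_congr rfl fun a ha => ?_
      have hprim : IsPrimitiveRoot (ζ ^ a) q := by
        apply hζ₀.pow_of_coprime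
        have h1 := Finset.mem_Ico.1 ha
        exact (Nat.coprime_of_lt_prime (by omega) h1.2 hq).symm
      rw [coeffMap_iotaMid Norm1_iota (σ : Qb →+* Qb) hq hqN _ hprim, hfix, map_pow])
  refine ⟨⟨y, C.mem_FF_of_coeffMap_mem (Ω := Qb) ?_⟩, hy⟩
  rw [hy]
  exact Subtype.property _

/-- two `n`-th roots of the same series differ by a constant. -/
theorem Descent_eq_C_mul {n : ℕ} (hn : 0 < n) {u v : LaurentSeries Qb} (hv : v ≠ 0)
    (h : u ^ n = v ^ n) : ∃ ε : Qb, u = HahnSeries.C ε * v := by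
  have : NeZero n := ⟨hn.ne'⟩
  obtain ⟨ε₀, hε₀⟩ := HasEnoughRootsOfUnity.exists_primitiveRoot Qb n
  have hC : IsPrimitiveRoot (HahnSeries.C ε₀ : LaurentSeries Qb) n :=
    hε₀.map_of_injective (f := (HahnSeries.C : Qb →+* LaurentSeries Qb)) HahnSeries.C_injective
  have h1 : (u / v) ^ n = 1 := by
    rw [div_pow, h, div_self (pow_ne_zero n hv)]
  obtain ⟨i, _, hi⟩ := hC.eq_pow_of_pow_eq_one h1
  refine ⟨ε₀ ^ i, ?_⟩
  rw [map_pow, hi, div_mul_cancel₀ _ hv]

/-- Descent of `n`-th roots: if `x ∈ FF L N` is an `n`-th power in `FF Q̄ N` then `x = c z ^ n`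
with `c ∈ L`, `z ∈ FF L N`.  (Normalise `z` to have leading coefficient `1`; then `σ z / z` is an
`n`-th root of unity with leading coefficient `1`, so `σ z = z` for all `σ ∈ Gal(Q̄ / L)`;
`GR.C.mem_FF_of_coeffMap_mem`.) -/
theorem exists_root_over (L : IntermediateField ℚ Qb) (N n : ℕ) (hn : 0 < n) (x : FF L N)
    (hx : x ≠ 0) (h : KummerEquiv N n 1 (coeffMap (algebraMap L Qb) (x : LaurentSeries L))) :
    ∃ (c : L) (z : FF L N), c ≠ 0 ∧ z ≠ 0 ∧
      (x : LaurentSeries L) = HahnSeries.C c * (z : LaurentSeries L) ^ n := by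
  have : NeZero n := ⟨hn.ne'⟩
  obtain ⟨Z, hZ, hZ0, hxZ⟩ := h
  rw [one_mul] at hxZ
  set b : Qb := Z.coeff Z.order with hb
  have hb0 : b ≠ 0 := fun h0 => hZ0 (HahnSeries.coeff_order_eq_zero.1 h0)
  -- the normalised root is fixed by the Galois group
  obtain ⟨z₀, hz₀⟩ := exists_coeffMap_of_fixed L (HahnSeries.C b⁻¹ * Z) (by
    intro σ
    obtain ⟨ε, hε⟩ := Descent_eq_C_mul hn (u := coeffMap (σ : Qb →+* Qb) Z) (v := Z) hZ0 (by
      rw [← map_pow, ← hxZ, Descent_coeffMap_coeffMap])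
    have h1 : (σ : Qb →+* Qb) b = ε * b := by
      have := congrArg (fun g : LaurentSeries Qb => g.coeff Z.order) hε
      rw [HahnSeries.C_mul_eq_smul] at this
      exact this
    have hε0 : ε ≠ 0 := by
      rintro rfl
      rw [zero_mul] at h1
      exact hb0 ((map_eq_zero (σ : Qb →+* Qb)).1 h1)
    rw [map_mul, Descent_coeffMap_C, map_inv₀, h1, hε, ← mul_assoc, ← map_mul]
    congr 2
    field_simp)
  have hz₀FF : z₀ ∈ FF L N := by
    apply C.mem_FF_of_coeffMap_mem (Ω := Qb)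
    rw [hz₀]
    exact mul_mem (C.C_mem_intermediateField (F₁ := FF Qb N) b⁻¹) hZ
  have hz₀0 : z₀ ≠ 0 := by
    rintro rfl
    rw [map_zero] at hz₀
    exact mul_ne_zero (by simpa using hb0) hZ0 hz₀.symm
  have hinj : Function.Injective (coeffMap (algebraMap L Qb)) := RingHom.injective _
  -- the constant
  have hC : coeffMap (algebraMap L Qb) ((x : LaurentSeries L) * (z₀ ^ n)⁻¹) =
      HahnSeries.C (b ^ n) := by
    rw [map_mul, map_inv₀, map_pow, hz₀, hxZ, map_pow HahnSeries.C b n, map_inv₀]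
    have h1 : (HahnSeries.C b : LaurentSeries Qb) ≠ 0 := by simpa using hb0
    field_simp
    rw [div_pow, div_mul_cancel₀ _ (pow_ne_zero n h1)]
  set c : L := ((x : LaurentSeries L) * (z₀ ^ n)⁻¹).coeff 0 with hc
  have hcb : algebraMap L Qb c = b ^ n := by
    have := congrArg (fun g : LaurentSeries Qb => g.coeff 0) hC
    exact this.trans (HahnSeries.coeff_single_same 0 _)
  have hxc : (x : LaurentSeries L) * (z₀ ^ n)⁻¹ = HahnSeries.C c := by
    apply hinj
    rw [hC, Descent_coeffMap_C, hcb]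
  refine ⟨c, ⟨z₀, hz₀FF⟩, ?_, fun h0 => hz₀0 (congrArg Subtype.val h0), ?_⟩
  · intro h0
    rw [h0, map_zero] at hcb
    exact pow_ne_zero n hb0 hcb.symm
  · show (x : LaurentSeries L) = HahnSeries.C c * z₀ ^ n
    rw [← hxc, inv_mul_cancel_right₀ (pow_ne_zero n hz₀0)]

theorem normTriv_of_normTrivQb {q N1 n : ℕ} [NeZero q] (hq : q.Prime) (hN1 : N1 ≠ 0)
    (hqN : ¬ q ∣ N1) (hn : 0 < n) {ζ : Qbˣ} (hζ : IsPrimitiveRoot ζ q)
    (L : IntermediateField ℚ Qb) (x : FF L (q ^ 2 * N1)) (hx : x ≠ 0)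
    (h : NormTrivQb q N1 n ζ (mapFF (algebraMap L Qb) (q ^ 2 * N1) x)) :
    NormTriv q N1 n ζ L x := by
  have key : ∀ (y : FF L (q * N1)) (w : LaurentSeries Qb),
      coeffMap (algebraMap L Qb) (y : LaurentSeries L) = w → KummerEquiv (q * N1) n 1 w →
      ∃ (c : L) (z : FF L (q * N1)), c ≠ 0 ∧ z ≠ 0 ∧
        w = coeffMap (algebraMap L Qb) (HahnSeries.C c * (z : LaurentSeries L) ^ n) := by
    rintro y w rfl hw
    have hy : y ≠ 0 := by
      rintro rfl
      obtain ⟨z, _, hz0, hz⟩ := hw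
      rw [one_mul, ZeroMemClass.coe_zero, map_zero] at hz
      exact pow_ne_zero n hz0 hz.symm
    obtain ⟨c, z, hc, hz, heq⟩ := exists_root_over L (q * N1) n hn y hy hw
    exact ⟨c, z, hc, hz, by rw [heq]⟩
  obtain ⟨y₁, hy₁⟩ := normT_defOver_FF hq hN1 hqN hζ L x
  obtain ⟨y₂, hy₂⟩ := normFF_defOver_FF hq hN1 hqN L x
  exact ⟨key y₁ _ hy₁ h.1, key y₂ _ hy₂ h.2⟩

end Fermat.Agent.GT.Brg
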