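import Fermat.Agent.GT.Brg.Defs
import Fermat.Agent.GR.E.BR1
import Fermat.Agent.GR.E.BR2
import Fermat.Agent.GR.E.BR7
import Fermat.Agent.GR.E.BR10
import Fermat.Agent.GR.D.HorizJ

/-! GT-BRG, file `Div`: `DivisibleAtPlaces` over `L` from `IsKummer` over `Q̄` (via the Galois
descent of certificates, module CERT), and its stability. -/

set_option autoImplicit false
set_option synthInstance.maxHeartbeats 400000

noncomputable section

namespace Fermat.Agent.GT.Brg

open Fermat.Agent.GR Fermat.Agent.GR.E Fermat.Agent.GT ModularCurve AlgebraicCurve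
  IntermediateField

/-- The export of module CERT (helper54: `Fermat/Agent/GT/Cert.lean`). -/
def CertDescent : Prop :=
  ∀ (L : IntermediateField ℚ Qb) (N n : ℕ) (h w : FF L N), 0 < n →
    Certificate Qb (mapFF (algebraMap L Qb) N h) n (mapFF (algebraMap L Qb) N w) →
      Certificate L h n w

/-- Use the base function `h = j` (transcendental, `FF Q̄ N` finite over `Q̄(j)`: S24 / BR10):
`exists_certificate` for `j` and `j⁻¹` over `Q̄`, `CertDescent`,
`divisibleAtPlaces_of_certificate`. -/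
theorem divisibleAtPlaces_of_isKummer (hcert : CertDescent) (L : IntermediateField ℚ Qb)
    (R : ValuationSubring L) (N : ℕ) [NeZero N] (n : ℕ) (hn : 0 < n) (w : FF L N)
    (hK : IsKummer (N := N) n (coeffMap (algebraMap L Qb) (w : LaurentSeries L))) :
    DivisibleAtPlaces R n w := by
  obtain ⟨hw0, hmem, hdiv⟩ := hK
  have hwQ : mapFF (algebraMap L Qb) N w =
      (⟨coeffMap (algebraMap L Qb) (w : LaurentSeries L), hmem⟩ : FF Qb N) :=
    Subtype.ext (coe_mapFF _ _ _)
  have hwQ0 : mapFF (algebraMap L Qb) N w ≠ 0 := by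
    rw [hwQ]
    exact fun h => hw0 (congrArg Subtype.val h)
  have hj : mapFF (algebraMap L Qb) N (C.jF L N) = C.jF Qb N := by
    apply Subtype.ext
    rw [coe_mapFF]
    exact coeffMap_jqModC _
  have htr : Transcendental Qb (C.jF Qb N) := D.transcendental_jF Qb N
  haveI hfd : FiniteDimensional Qb⟮C.jF Qb N⟯ (FF Qb N) := D.finiteDimensional_FF Qb N
  have c0Q : Certificate Qb (C.jF Qb N) n (mapFF (algebraMap L Qb) N w) :=
    exists_certificate (C.jF Qb N) htr n hn _ hwQ0 (by rw [hwQ]; exact hdiv)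
  haveI hfd' : FiniteDimensional Qb⟮(C.jF Qb N)⁻¹⟯ (FF Qb N) :=
    BR7_finiteDimensional_inv _ hfd
  have c1Q : Certificate Qb (C.jF Qb N)⁻¹ n (mapFF (algebraMap L Qb) N w) :=
    exists_certificate (C.jF Qb N)⁻¹ (BR7_transcendental_inv htr) n hn _ hwQ0
      (by rw [hwQ]; exact hdiv)
  have c0 : Certificate L (C.jF L N) n w := hcert L N n _ _ hn (by rw [hj]; exact c0Q)
  have c1 : Certificate L (C.jF L N)⁻¹ n w :=
    hcert L N n _ _ hn (by rw [map_inv₀, hj]; exact c1Q)
  exact divisibleAtPlaces_of_certificate R _ n w c0 c1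

theorem divisibleAtPlaces_const_mul_pow_mul_pow {L F : Type*} [Field L] [Field F] [Algebra L F]
    (R : ValuationSubring L) {n : ℕ} {w : F} (hw : DivisibleAtPlaces R n w) {a : L} (ha : a ≠ 0)
    (c : ℕ) {z : F} (hz : z ≠ 0) :
    DivisibleAtPlaces R n (algebraMap L F a * w ^ c * z ^ n) := by
  intro V hR hR'
  have hL : ∀ c : L, algebraMap L F c ∈ V := by
    intro c
    rcases R.mem_or_inv_mem c with hc | hc
    · exact hR ⟨c, hc⟩
    · have h1 := hR' ⟨c⁻¹, hc⟩
      have h2 : (algebraMap (↥R) F ⟨c⁻¹, hc⟩)⁻¹ = algebraMap L F c := by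
        have : algebraMap (↥R) F ⟨c⁻¹, hc⟩ = algebraMap L F c⁻¹ := rfl
        rw [this, map_inv₀, inv_inv]
      rwa [h2] at h1
  obtain ⟨a0, ha0, h1, h2⟩ := hw V hR hR'
  have e : (a0 ^ c / z) ^ n * (algebraMap L F a * w ^ c * z ^ n) =
      algebraMap L F a * (a0 ^ n * w) ^ c := by
    have hzn : z ^ n ≠ 0 := pow_ne_zero _ hz
    rw [div_pow, mul_pow, ← pow_mul, ← pow_mul, mul_comm c n]
    field_simp
  refine ⟨a0 ^ c / z, div_ne_zero (pow_ne_zero _ ha0) hz, ?_, ?_⟩
  · rw [e]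
    exact V.mul_mem _ _ (hL a) (V.pow_mem h1 c)
  · have : ((a0 ^ c / z) ^ n * (algebraMap L F a * w ^ c * z ^ n))⁻¹ =
        algebraMap L F a⁻¹ * ((a0 ^ n * w)⁻¹) ^ c := by
      rw [e, mul_inv, map_inv₀, inv_pow]
    rw [this]
    exact V.mul_mem _ _ (hL _) (V.pow_mem h2 c)

end Fermat.Agent.GT.Brg
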