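import Fermat.Agent.GT.Brg.Defs
import Fermat.Agent.Lib.Frobenius

/-! GT-BRG, file `Field`: good fields (number fields inside the inertia field of `A`, stable under
the decomposition group), Frobenius lifts, adjunction of `n`-th roots of units. -/

set_option autoImplicit false
set_option synthInstance.maxHeartbeats 400000

noncomputable section

namespace Fermat.Agent.GT.Brg

open Fermat.Agent.GR Fermat.Agent.GR.E Fermat.Agent.GT IntermediateField

variable {A : ValuationSubring Qb}

theorem Field_normal_inertia {K L : Type*} [Field K] [Field L] [Algebra K L]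
    (A : ValuationSubring L) : (A.inertiaSubgroup K).Normal := by
  unfold ValuationSubring.inertiaSubgroup
  infer_instance

theorem Field_conj_mem {K L : Type*} [Field K] [Field L] [Algebra K L] (A : ValuationSubring L)
    {τ σ : L ≃ₐ[K] L} (hτ : τ ∈ A.decompositionSubgroup K) (hσ : σ ∈ A.inertiaSubgroupIn K) :
    τ⁻¹ * σ * τ ∈ A.inertiaSubgroupIn K := by
  rw [ValuationSubring.inertiaSubgroupIn, Subgroup.mem_map] at hσ ⊢
  obtain ⟨s, hs, hss⟩ := hσ
  have hN := Field_normal_inertia (K := K) A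
  have h1 := hN.conj_mem' s hs ⟨τ, hτ⟩
  refine ⟨_, h1, ?_⟩
  rw [map_mul, map_mul, map_inv, hss]
  rfl

theorem Field_exists_finset {K E : Type*} [Field K] [Field E] [Algebra K E]
    (L : IntermediateField K E) [h : FiniteDimensional K L] :
    ∃ T : Finset E, L = IntermediateField.adjoin K (T : Set E) := by
  have h : L.toSubalgebra.toSubmodule.FG := Module.Finite.iff_fg.1 h
  obtain ⟨T, hT⟩ := IntermediateField.fg_of_fg_toSubalgebra L (Subalgebra.fg_of_fg_toSubmodule h)
  exact ⟨T, hT.symm⟩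

/-- The inertia group is normal in the decomposition group. -/
theorem conj_mem_inertia {τ σ : Qb ≃ₐ[ℚ] Qb} (hτ : τ ∈ A.decompositionSubgroup ℚ)
    (hσ : σ ∈ A.inertiaSubgroupIn ℚ) : τ⁻¹ * σ * τ ∈ A.inertiaSubgroupIn ℚ := by
  exact Field_conj_mem A hτ hσ

/-- The inertia field is stable under the decomposition group. -/
theorem InertFixedElt.map {τ : Qb ≃ₐ[ℚ] Qb} (hτ : τ ∈ A.decompositionSubgroup ℚ) {x : Qb}
    (hx : InertFixedElt A x) : InertFixedElt A (τ x) := by
  intro σ hσ
  have h := hx _ (conj_mem_inertia hτ hσ)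
  have h2 : (τ⁻¹ * σ * τ) x = τ⁻¹ (σ (τ x)) := rfl
  rw [h2] at h
  have h3 := congrArg τ h
  rwa [show τ (τ⁻¹ (σ (τ x))) = σ (τ x) from AlgEquiv.apply_symm_apply τ _] at h3

theorem Field_isIntegral (x : Qb) : IsIntegral ℚ x :=
  ((AlgebraicClosure.isAlgebraic ℚ).isAlgebraic x).isIntegral

theorem Field_inertFixedElt_iff (x : Qb) :
    InertFixedElt A x ↔ x ∈ IntermediateField.fixedField (A.inertiaSubgroupIn ℚ) := by
  rw [IntermediateField.mem_fixedField_iff]
  rfl

/-- the set of the `D`-conjugates of the elements of `S`. -/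
def Field_conjSet (A : ValuationSubring Qb) (S : Finset Qb) : Set Qb :=
  {y | ∃ τ ∈ A.decompositionSubgroup ℚ, ∃ x ∈ S, τ x = y}

theorem Field_conjSet_finite (S : Finset Qb) : (Field_conjSet A S).Finite := by
  have h : Field_conjSet A S ⊆ ⋃ x ∈ S, (minpoly ℚ x).rootSet Qb := by
    rintro y ⟨τ, -, x, hx, rfl⟩
    refine Set.mem_biUnion hx ?_
    have hint : IsIntegral ℚ x := Field_isIntegral x
    rw [Polynomial.mem_rootSet]
    refine ⟨minpoly.ne_zero hint, ?_⟩
    have : Polynomial.aeval (τ x) (minpoly ℚ x) = τ (Polynomial.aeval x (minpoly ℚ x)) :=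
      Polynomial.aeval_algHom_apply (τ : Qb →ₐ[ℚ] Qb) x _
    rw [this, minpoly.aeval, map_zero]
  exact (Set.Finite.biUnion S.finite_toSet fun x _ => Polynomial.rootSet_finite _ _).subset h

/-- Every finite subset of the inertia field lies in a good field.
(`L := ℚ({τ x : τ ∈ D, x ∈ S})`; this set is finite: it consists of roots of the minimal
polynomials of the elements of `S`.) -/
theorem exists_goodField (S : Finset Qb) (hS : ∀ x ∈ S, InertFixedElt A x) :
    ∃ L : IntermediateField ℚ Qb, GoodField A S L := by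
  refine ⟨IntermediateField.adjoin ℚ (Field_conjSet A S), ?_, ?_, ?_, ?_⟩
  · haveI : Finite (Field_conjSet A S) := (Field_conjSet_finite S).to_subtype
    exact IntermediateField.finiteDimensional_adjoin
      fun x _ => Field_isIntegral x
  · have hle : IntermediateField.adjoin ℚ (Field_conjSet A S) ≤
        IntermediateField.fixedField (A.inertiaSubgroupIn ℚ) := by
      rw [IntermediateField.adjoin_le_iff]
      rintro y ⟨τ, hτ, x, hx, rfl⟩
      exact (Field_inertFixedElt_iff _).1 ((hS x hx).map hτ)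
    intro τ hτ x
    exact (Field_inertFixedElt_iff _).2 (hle x.2) τ hτ
  · intro τ hτ x hx
    have h1 : τ x ∈ (IntermediateField.adjoin ℚ (Field_conjSet A S)).map (τ : Qb →ₐ[ℚ] Qb) :=
      ⟨x, hx, rfl⟩
    rw [IntermediateField.adjoin_map] at h1
    refine IntermediateField.adjoin.mono ℚ _ _ ?_ h1
    rintro _ ⟨y, ⟨τ', hτ', x', hx', rfl⟩, rfl⟩
    exact ⟨τ * τ', mul_mem hτ hτ', x', hx', rfl⟩
  · intro x hx
    exact IntermediateField.subset_adjoin ℚ _ ⟨1, one_mem _, x, hx, rfl⟩

/-- Enlargement of a number field inside the inertia field to a good field containing a given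
finite subset of the inertia field. -/
theorem exists_goodField_ge (L : IntermediateField ℚ Qb) [FiniteDimensional ℚ L]
    (hL : InertFixed A L) (S : Finset Qb) (hS : ∀ x ∈ S, InertFixedElt A x) :
    ∃ L' : IntermediateField ℚ Qb, GoodField A S L' ∧ L ≤ L' := by
  classical
  obtain ⟨T, hT⟩ := Field_exists_finset L
  obtain ⟨L', hL'⟩ := exists_goodField (A := A) (T ∪ S) (by
    intro x hx
    rcases Finset.mem_union.1 hx with hx | hx
    · have hxL : x ∈ L := by
        rw [hT]
        exact IntermediateField.subset_adjoin ℚ _ hx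
      exact fun τ hτ => hL τ hτ ⟨x, hxL⟩
    · exact hS x hx)
  refine ⟨L', ⟨hL'.fin, hL'.inert, hL'.dstable,
    fun x hx => hL'.big x (Finset.mem_union_right _ hx)⟩, ?_⟩
  rw [hT, IntermediateField.adjoin_le_iff]
  exact fun x hx => hL'.big x (Finset.mem_union_left _ hx)

theorem GoodField.mono {S S' : Finset Qb} (h : S ⊆ S') {L : IntermediateField ℚ Qb}
    (hL : GoodField A S' L) : GoodField A S L :=
  ⟨hL.fin, hL.inert, hL.dstable, fun x hx => hL.big x (h hx)⟩

open scoped Pointwise


/-! ### helpers for part 2 -/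

theorem Field_mem_nonunits_iff {K : Type*} [Field K] (B : ValuationSubring K) (x : K) :
    x ∈ B.nonunits ↔ x = 0 ∨ x⁻¹ ∉ B := by
  rw [ValuationSubring.mem_nonunits_iff]
  by_cases hx : x = 0
  · subst hx
    simp
  · have h0 : B.valuation x ≠ 0 := (Valuation.ne_zero_iff _).2 hx
    rw [← ValuationSubring.valuation_le_one_iff, map_inv₀, not_le]
    constructor
    · intro h
      exact Or.inr ((one_lt_inv₀ (zero_lt_iff.2 h0)).2 h)
    · rintro (h | h)
      · exact absurd h hx
      · exact (one_lt_inv₀ (zero_lt_iff.2 h0)).1 h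

theorem Field_mem_nonunits_comap {K K' : Type*} [Field K] [Field K'] (φ : K →+* K')
    (B : ValuationSubring K') (x : K) : x ∈ (B.comap φ).nonunits ↔ φ x ∈ B.nonunits := by
  rw [Field_mem_nonunits_iff, Field_mem_nonunits_iff, ValuationSubring.mem_comap, map_inv₀,
    map_eq_zero]

/-- inertia acts trivially on the residue field -/
theorem Field_inertia_sub_mem {τ : Qb ≃ₐ[ℚ] Qb} (hτ : τ ∈ A.inertiaSubgroupIn ℚ) {c : Qb}
    (hc : c ∈ A) : τ c - c ∈ A.nonunits := by
  obtain ⟨g, hg, rfl⟩ := Subgroup.mem_map.mp hτ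
  have h1 : MulSemiringAction.toRingAut (A.decompositionSubgroup ℚ)
      (IsLocalRing.ResidueField A) g = 1 := MonoidHom.mem_ker.mp hg
  have h2 : g • IsLocalRing.residue A ⟨c, hc⟩ = IsLocalRing.residue A ⟨c, hc⟩ := by
    have := congrArg (fun f => f (IsLocalRing.residue A ⟨c, hc⟩)) h1
    simpa using this
  rw [← IsLocalRing.ResidueField.residue_smul, ← sub_eq_zero, ← map_sub,
    IsLocalRing.residue_eq_zero_iff] at h2
  have h3 := ValuationSubring.coe_mem_nonunits_iff.mpr h2
  exact h3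

/-- a Frobenius element, elementwise -/
theorem Field_frob_sub_mem {φ : Qb ≃ₐ[ℚ] Qb} {q : ℕ} (hφ : A.IsFrobeniusAt φ q) {c : Qb}
    (hc : c ∈ A) : φ c - c ^ q ∈ A.nonunits := by
  have h2 := hφ.smul_residue_eq (IsLocalRing.residue A ⟨c, hc⟩)
  rw [← IsLocalRing.ResidueField.residue_smul, ← map_pow, ← sub_eq_zero, ← map_sub,
    IsLocalRing.residue_eq_zero_iff] at h2
  have h3 := ValuationSubring.coe_mem_nonunits_iff.mpr h2
  exact h3

/-- the decomposition group preserves `A` -/
theorem Field_mem_iff_of_mem_decomposition {φ : Qb ≃ₐ[ℚ] Qb}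
    (hφ : φ ∈ A.decompositionSubgroup ℚ) (x : Qb) : x ∈ A ↔ φ x ∈ A := by
  have h : φ • A = A := MulAction.mem_stabilizer_iff.mp hφ
  constructor
  · intro hx
    rw [← h]
    exact ValuationSubring.smul_mem_pointwise_smul φ x A hx
  · intro hx
    rw [← h, ValuationSubring.mem_pointwise_smul_iff_inv_smul_mem] at hx
    simpa using hx

/-- `n`-th roots of units of the inertia field lie in the inertia field (`q ∤ n`).
(`τ β = ε β` with `ε ^ n = 1` and `ε ≡ 1`; `∏_{ε' ≠ 1} (1 - ε') = n` is a unit of `A`.) -/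
theorem inertFixedElt_of_pow {q : ℕ} (hq : q.Prime) (hA : A.LiesOverPrime q) {n : ℕ}
    (hn : ¬ q ∣ n) {b β : Qb} (hb : InertFixedElt A b) (hbA : b ∈ A) (hbA' : b⁻¹ ∈ A)
    (hβ : β ^ n = b) : InertFixedElt A β := by
  intro τ hτ
  have hn0 : n ≠ 0 := by
    rintro rfl
    exact hn (dvd_zero q)
  by_cases hb0 : b = 0
  · have hβ0 : β = 0 := by
      rw [hb0] at hβ
      exact (pow_eq_zero_iff hn0).1 hβ
    rw [hβ0, map_zero]
  have hβ0 : β ≠ 0 := by
    rintro rfl
    rw [zero_pow hn0] at hβ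
    exact hb0 hβ.symm
  have hv0 : A.valuation b ≠ 0 := (Valuation.ne_zero_iff _).2 hb0
  have hvb : A.valuation b = 1 := by
    apply le_antisymm ((A.valuation_le_one_iff b).2 hbA)
    have h1 := (A.valuation_le_one_iff _).2 hbA'
    rw [map_inv₀] at h1
    exact (inv_le_one₀ (zero_lt_iff.2 hv0)).1 h1
  have hvβ : A.valuation β = 1 := by
    have : A.valuation β ^ n = 1 := by rw [← map_pow, hβ, hvb]
    exact (pow_eq_one_iff.1 this).resolve_right hn0
  have hβA : β ∈ A := (A.valuation_le_one_iff β).1 hvβ.le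
  have hy : τ β - β ∈ A.nonunits := Field_inertia_sub_mem hτ hβA
  have hyA : τ β - β ∈ A := ValuationSubring.nonunits_subset hy
  obtain ⟨k, hk⟩ := Polynomial.powAddExpansion (⟨β, hβA⟩ : A) ⟨τ β - β, hyA⟩ n
  have hk' : (β + (τ β - β)) ^ n = β ^ n + n * β ^ (n - 1) * (τ β - β) + k * (τ β - β) ^ 2 := by
    have := congrArg (Subtype.val) hk
    simpa using this
  have h1 : (β + (τ β - β)) ^ n = β ^ n := by
    rw [add_sub_cancel, ← map_pow, hβ, hb τ hτ]
  rw [h1] at hk'
  have h2 : (τ β - β) * ((n : Qb) * β ^ (n - 1) + k * (τ β - β)) = 0 := by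
    linear_combination -hk'
  rcases mul_eq_zero.mp h2 with h | h
  · exact sub_eq_zero.1 h
  · exfalso
    have h3 : (n : Qb) * β ^ (n - 1) = -((τ β - β) * k) := by
      linear_combination h
    have h4 : A.valuation ((n : Qb) * β ^ (n - 1)) < 1 := by
      rw [h3, Valuation.map_neg, ← ValuationSubring.mem_nonunits_iff]
      exact Fermat.Agent.Lib.Frobenius.nonunits_mul A hy k.2
    rw [map_mul, map_pow, hvβ, one_pow, mul_one, ← ValuationSubring.mem_nonunits_iff] at h4
    have h5 : ((n : ℤ) : Qb) ∉ A.nonunits :=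
      Fermat.Agent.Lib.Frobenius.intCast_not_mem_nonunits A hq hA
        (by exact_mod_cast hn)
    apply h5
    exact_mod_cast h4

/-- A good field carries a Frobenius lift. -/
theorem exists_frobLift {q : ℕ} (hq : q.Prime) (hA : A.LiesOverPrime q)
    {S : Finset Qb} {L : IntermediateField ℚ Qb} (hL : GoodField A S L) :
    ∃ σ : L ≃ₐ[ℚ] L, (∀ x : L, x ∈ RL A L ↔ σ x ∈ RL A L) ∧
      ∀ x : L, x ∈ RL A L → σ x - x ^ q ∈ (RL A L).nonunits := by
  obtain ⟨φ, hφ⟩ := Fermat.Agent.Lib.Frobenius.exists_isFrobeniusAt_of_liesOverPrime A hq hA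
  have hφD : φ ∈ A.decompositionSubgroup ℚ := hφ.mem_decompositionSubgroup
  have := hL.fin
  let f : L →ₐ[ℚ] L := ((φ : Qb →ₐ[ℚ] Qb).comp L.val).codRestrict L.toSubalgebra
    (fun x => hL.dstable φ hφD x x.2)
  have hf : ∀ x : L, ((f x : L) : Qb) = φ (x : Qb) := fun x => rfl
  let σ : L ≃ₐ[ℚ] L := AlgEquiv.ofBijective f (Algebra.IsAlgebraic.algHom_bijective f)
  have hσ : ∀ x : L, ((σ x : L) : Qb) = φ (x : Qb) := fun x => rfl
  refine ⟨σ, fun x => ?_, fun x hx => ?_⟩
  · rw [ValuationSubring.mem_comap, ValuationSubring.mem_comap]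
    exact Field_mem_iff_of_mem_decomposition hφD (x : Qb)
  · rw [Field_mem_nonunits_comap]
    have : algebraMap L Qb (σ x - x ^ q) = φ (x : Qb) - (x : Qb) ^ q := by
      rw [map_sub, map_pow]
      rfl
    rw [this]
    exact Field_frob_sub_mem hφ hx

end Fermat.Agent.GT.Brg
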