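import Fermat.Agent.GT.Brg.Defs
import Fermat.Agent.GT.EMB.Norm2
import Fermat.Agent.GR.F.FormalNorm

/-! GT-BRG, file `Level`: stability of `NormTrivQb` (level raising itself is in `LevelUp`). -/

set_option autoImplicit false
set_option synthInstance.maxHeartbeats 400000

noncomputable section

namespace Fermat.Agent.GT.Brg

open Fermat.Agent.GR Fermat.Agent.GR.E Fermat.Agent.GT Fermat.Agent.GT.EMB ModularCurve
  AlgebraicCurve IntermediateField

theorem Level_ke_mul {N n : ℕ} {x y : LaurentSeries Qb} (hx : KummerEquiv N n 1 x)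
    (hy : KummerEquiv N n 1 y) : KummerEquiv N n 1 (x * y) := by
  obtain ⟨z, hz, hz0, rfl⟩ := hx
  obtain ⟨w, hw, hw0, rfl⟩ := hy
  exact ⟨z * w, mul_mem hz hw, mul_ne_zero hz0 hw0, by ring⟩

theorem Level_ke_one (N n : ℕ) : KummerEquiv N n 1 (1 : LaurentSeries Qb) :=
  ⟨1, one_mem _, one_ne_zero, by simp⟩

theorem Level_ke_pow {N n : ℕ} {x : LaurentSeries Qb} (hx : KummerEquiv N n 1 x) (c : ℕ) :
    KummerEquiv N n 1 (x ^ c) := by
  induction c with
  | zero => rw [pow_zero]; exact Level_ke_one N n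
  | succ c ih => rw [pow_succ]; exact Level_ke_mul ih hx

theorem Level_ke_pow_self {N : ℕ} (n : ℕ) {w : LaurentSeries Qb} (hw : w ∈ FF Qb N)
    (hw0 : w ≠ 0) : KummerEquiv N n 1 (w ^ n) :=
  ⟨w, hw, hw0, by rw [one_mul]⟩

theorem Level_coe_algebraMap (N : ℕ) (a : Qb) :
    ((algebraMap Qb (FF Qb N) a : FF Qb N) : LaurentSeries Qb) = HahnSeries.C a := by
  rw [IntermediateField.coe_algebraMap_apply, algebraMap_laurentSeries_eq_single]
  rfl

theorem Level_algebraMap_eq_C (a : Qb) :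
    algebraMap Qb (LaurentSeries Qb) a = HahnSeries.C a := by
  rw [algebraMap_laurentSeries_eq_single]
  rfl

theorem Level_ke_C (N : ℕ) {n : ℕ} (hn : 0 < n) {a : Qb} (ha : a ≠ 0) :
    KummerEquiv N n 1 (HahnSeries.C a : LaurentSeries Qb) := by
  obtain ⟨b, hb⟩ := IsAlgClosed.exists_pow_nat_eq a hn
  have hb0 : b ≠ 0 := by
    rintro rfl
    rw [zero_pow hn.ne'] at hb
    exact ha hb.symm
  refine ⟨HahnSeries.C b, ?_, ?_, ?_⟩
  · rw [← Level_coe_algebraMap N b]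
    exact (algebraMap Qb (FF Qb N) b).2
  · intro h
    apply hb0
    have := congrArg (fun f : LaurentSeries Qb => f.coeff 0) h
    simpa using this
  · rw [one_mul, ← map_pow, hb]

theorem Level_normT_one (q : ℕ) [NeZero q] (ζ : Qbˣ) :
    normT q ζ (1 : LaurentSeries Qb) = 1 := by
  have := normT_C q ζ (1 : Qb)
  rwa [one_pow, map_one] at this

theorem Level_normT_pow (q : ℕ) [NeZero q] {ζ : Qbˣ} (hζ : IsPrimitiveRoot ζ q)
    (u : LaurentSeries Qb) (c : ℕ) : normT q ζ (u ^ c) = normT q ζ u ^ c := by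
  induction c with
  | zero => rw [pow_zero, pow_zero, Level_normT_one]
  | succ c ih => rw [pow_succ, pow_succ, normT_mul q ζ hζ, ih]

theorem Level_normT_ne_zero (q : ℕ) [NeZero q] {ζ : Qbˣ} (hζ : IsPrimitiveRoot ζ q)
    {u : LaurentSeries Qb} (hu : u ≠ 0) : normT q ζ u ≠ 0 := by
  intro h
  have h1 := normT_mul q ζ hζ u u⁻¹
  rw [mul_inv_cancel₀ hu, Level_normT_one, h, zero_mul] at h1
  exact one_ne_zero h1

theorem Level_normFF_mul {N N' : ℕ} (h : N ∣ N') (x y : FF Qb N') :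
    normFF Qb h (x * y) = normFF Qb h x * normFF Qb h y := by
  unfold normFF
  exact map_mul _ _ _

theorem Level_normFF_one {N N' : ℕ} (h : N ∣ N') : normFF Qb h (1 : FF Qb N') = 1 := by
  unfold normFF
  exact map_one _

theorem Level_normFF_pow {N N' : ℕ} (h : N ∣ N') (x : FF Qb N') (c : ℕ) :
    normFF Qb h (x ^ c) = normFF Qb h x ^ c := by
  unfold normFF
  exact map_pow _ _ _

theorem Level_normFF_ne_zero {N N' : ℕ} (h : N ∣ N') {x : FF Qb N'} (hx : x ≠ 0) :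
    normFF Qb h x ≠ 0 := by
  intro h0
  have h1 := Level_normFF_mul h x x⁻¹
  rw [mul_inv_cancel₀ hx, Level_normFF_one, h0, zero_mul] at h1
  exact one_ne_zero h1

theorem Level_normFF_algebraMap {N N' : ℕ} (h : N ∣ N') (a : Qb) :
    ∃ d : ℕ, normFF Qb h (algebraMap Qb (FF Qb N') a) = algebraMap Qb (FF Qb N) a ^ d := by
  unfold normFF
  let _ : Algebra (FF Qb N) (FF Qb N') :=
    (IntermediateField.inclusion (BR8_FF_le Qb h)).toRingHom.toAlgebra
  refine ⟨Module.finrank (FF Qb N) (FF Qb N'), ?_⟩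
  have h1 : algebraMap Qb (FF Qb N') a = algebraMap (FF Qb N) (FF Qb N') (algebraMap Qb (FF Qb N) a) :=
    rfl
  rw [h1]
  exact Algebra.norm_algebraMap _

/-- `NormTrivQb` is stable under `u ↦ a u ^ c z ^ n`. -/
theorem NormTrivQb.const_mul_pow_mul_pow {q N1 n : ℕ} [NeZero q] (hq : q.Prime) (hN1 : N1 ≠ 0)
    (hqN : ¬ q ∣ N1) (hn : 0 < n) {ζ : Qbˣ} (hζ : IsPrimitiveRoot ζ q) {u : FF Qb (q ^ 2 * N1)}
    (hu : NormTrivQb q N1 n ζ u) (a : Qb) (ha : a ≠ 0) (c : ℕ) (z : FF Qb (q ^ 2 * N1))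
    (hz : z ≠ 0) :
    NormTrivQb q N1 n ζ (algebraMap Qb (FF Qb (q ^ 2 * N1)) a * u ^ c * z ^ n) := by
  obtain ⟨hu1, hu2⟩ := hu
  have hz0 : (z : LaurentSeries Qb) ≠ 0 := fun h => hz (Subtype.ext h)
  constructor
  · have h1 : ((algebraMap Qb (FF Qb (q ^ 2 * N1)) a * u ^ c * z ^ n : FF Qb (q ^ 2 * N1)) :
        LaurentSeries Qb) = HahnSeries.C a * (u : LaurentSeries Qb) ^ c *
          (z : LaurentSeries Qb) ^ n := by
      push_cast
      rw [Level_algebraMap_eq_C]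
    rw [h1, normT_mul q ζ hζ, normT_mul q ζ hζ, normT_C, Level_normT_pow q hζ,
      Level_normT_pow q hζ]
    exact Level_ke_mul (Level_ke_mul (Level_ke_C _ hn (pow_ne_zero _ ha)) (Level_ke_pow hu1 c))
      (Level_ke_pow_self n (normT_mem_FF_of_sq hq hN1 hqN ζ hζ z.2)
        (Level_normT_ne_zero q hζ hz0))
  · rw [Level_normFF_mul, Level_normFF_mul, Level_normFF_pow, Level_normFF_pow]
    obtain ⟨d, hd⟩ := Level_normFF_algebraMap (N := q * N1) (N' := q ^ 2 * N1) ⟨q, by ring⟩ a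
    rw [hd]
    push_cast
    rw [Level_algebraMap_eq_C]
    refine Level_ke_mul (Level_ke_mul (Level_ke_pow (Level_ke_C _ hn ha) d) (Level_ke_pow hu2 c))
      (Level_ke_pow_self n (normFF Qb _ z).2 fun h => Level_normFF_ne_zero _ hz (Subtype.ext h))

end Fermat.Agent.GT.Brg
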