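import Fermat.Agent.GT.Iface
import Fermat.Agent.GT.EMB.Norm1
import Fermat.Agent.GR.E.BR8b
import Fermat.Agent.GR.E.BR10

/-!
# Project GT, module BRG, step S0: raising the level

`CoreAux` is `CoreKI` restricted to the levels `N1` with `4 ∣ N1` (`q` odd) resp. `9 ∣ N1`
(`q = 2`).  We show `CoreAux → CoreKI`.
-/

set_option autoImplicit false
set_option synthInstance.maxHeartbeats 400000

noncomputable section

namespace Fermat.Agent.GT.Brg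

open Fermat.Agent.GR Fermat.Agent.GR.E ModularCurve AlgebraicCurve IntermediateField
open Fermat.Agent.GT Fermat.Agent.GT.EMB

/-- `CoreKI` for the auxiliary levels only. -/
def CoreAux : Prop :=
  ∀ (q : ℕ) [NeZero q], q.Prime → ∀ N1 : ℕ, N1 ≠ 0 → ¬ q ∣ N1 → (q ≠ 2 → 4 ∣ N1) →
    (q = 2 → 9 ∣ N1) →
    ∃ c : ℕ, 0 < c ∧
      ∀ A : ValuationSubring Qb, A.LiesOverPrime q →
      ∀ (L : IntermediateField ℚ Qb) [FiniteDimensional ℚ L], InertFixed A L →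
      ∀ n : ℕ, ¬ q ∣ n → ∀ ζ : Qbˣ, IsPrimitiveRoot ζ q →
      ∀ (u : LaurentSeries Qb) (hu : u ∈ FF Qb (q ^ 2 * N1)), BR3_DefOver (q ^ 2 * N1) L u →
        IsKummer (N := q ^ 2 * N1) n u →
        KummerEquiv (q * N1) n 1 (normT q ζ u) →
        KummerEquiv (q * N1) n 1
          ((normFF Qb (N := q * N1) (N' := q ^ 2 * N1) ⟨q, by ring⟩ ⟨u, hu⟩ : FF Qb (q * N1)) :
            LaurentSeries Qb) →
        KummerEquiv (q ^ 2 * N1) n 1 (u ^ c)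

theorem defOver_of_dvd {N N' : ℕ} (h : N ∣ N') {L : IntermediateField ℚ Qb}
    {u : LaurentSeries Qb} (hu : BR3_DefOver N L u) : BR3_DefOver N' L u := by
  obtain ⟨u', hu', rfl⟩ := hu
  exact ⟨u', BR8_FF_le L h hu', rfl⟩

theorem kummerEquiv_of_dvd {N N' : ℕ} (h : N ∣ N') {n : ℕ} {u u' : LaurentSeries Qb}
    (hu : KummerEquiv N n u u') : KummerEquiv N' n u u' := by
  obtain ⟨z, hz, hz0, rfl⟩ := hu
  exact ⟨z, BR8_FF_le Qb h hz, hz0, rfl⟩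

/-- `iotaMid` does not depend on the level. -/
theorem iotaMid_of_dvd {q M0 N1 : ℕ} [NeZero (q ^ 2 * M0)] [NeZero (q ^ 2 * N1)] (hq : q.Prime)
    (hqM : ¬ q ∣ M0) (hqN : ¬ q ∣ N1) (h : M0 ∣ N1) (ζ : Qbˣ) (hζ : IsPrimitiveRoot ζ q)
    (u : LaurentSeries Qb) (hu : u ∈ FF Qb (q ^ 2 * M0)) (hu' : u ∈ FF Qb (q ^ 2 * N1)) :
    iotaMid Qb q N1 ζ ⟨u, hu'⟩ = iotaMid Qb q M0 ζ ⟨u, hu⟩ := by
  have hle : FF Qb (q ^ 2 * M0) ≤ FF Qb (q ^ 2 * N1) := BR8_FF_le Qb (Nat.mul_dvd_mul_left _ h)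
  have key : (iotaMid Qb q N1 ζ).comp (IntermediateField.inclusion hle) = iotaMid Qb q M0 ζ := by
    refine algHom_ext_gen (q ^ 2 * M0) _ _ fun d hd => ?_
    rw [iotaMid_gen Norm1_iota hq hqM ζ hζ]
    have h1 : IntermediateField.inclusion hle (gen Qb (q ^ 2 * M0) d hd) =
        gen Qb (q ^ 2 * N1) d (hd.trans (Nat.mul_dvd_mul_left _ h)) := rfl
    rw [AlgHom.comp_apply, h1, iotaMid_gen Norm1_iota hq hqN ζ hζ]
  exact AlgHom.congr_fun key ⟨u, hu⟩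

/-- The norm `normFF` does not depend on the level. -/
theorem normFF_of_dvd {q M0 N1 : ℕ} (hq : q.Prime) (hM0 : M0 ≠ 0) (hN1 : N1 ≠ 0)
    (hqM : ¬ q ∣ M0) (hqN : ¬ q ∣ N1) (h : M0 ∣ N1) (ζ : Qbˣ) (hζ : IsPrimitiveRoot ζ q)
    (u : LaurentSeries Qb) (hu : u ∈ FF Qb (q ^ 2 * M0)) (hu' : u ∈ FF Qb (q ^ 2 * N1)) :
    ((normFF Qb (N := q * N1) (N' := q ^ 2 * N1) ⟨q, by ring⟩ ⟨u, hu'⟩ : FF Qb (q * N1)) :
        LaurentSeries Qb) =
      ((normFF Qb (N := q * M0) (N' := q ^ 2 * M0) ⟨q, by ring⟩ ⟨u, hu⟩ : FF Qb (q * M0)) :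
        LaurentSeries Qb) := by
  have : NeZero (q ^ 2 * M0) := ⟨mul_ne_zero (pow_ne_zero 2 hq.ne_zero) hM0⟩
  have : NeZero (q ^ 2 * N1) := ⟨mul_ne_zero (pow_ne_zero 2 hq.ne_zero) hN1⟩
  rw [normFF_eq_prod hq hqM ζ hζ, normFF_eq_prod hq hqN ζ hζ]
  congr 1
  refine Finset.prod_congr rfl fun a ha => ?_
  rw [Finset.mem_Ico] at ha
  have hprim : IsPrimitiveRoot (ζ ^ a) q :=
    hζ.pow_of_coprime a (Nat.coprime_of_lt_prime (by omega) ha.2 hq).symm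
  exact iotaMid_of_dvd hq hqM hqN h (ζ ^ a) hprim u hu hu'

/-- Going down by the norm: no coprimality, but the exponent is multiplied by the degree. -/
theorem pow_descent_norm {K M : Type*} [Field K] [Field M] [Algebra K M]
    {E E' : IntermediateField K M} (hle : E ≤ E') (hfin : E.relfinrank E' ≠ 0) (n : ℕ)
    (u z : M) (hu : u ∈ E) (hz : z ∈ E') (hz0 : z ≠ 0) (huz : u = z ^ n) :
    ∃ y ∈ E, y ≠ 0 ∧ u ^ (E.relfinrank E') = y ^ n := by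
  rw [relfinrank_eq_finrank_of_le hle] at hfin ⊢
  set d := Module.finrank E (extendScalars hle) with hd
  let u' : E := ⟨u, hu⟩
  let z' : extendScalars hle := ⟨z, hz⟩
  have hz'0 : z' ≠ 0 := fun h => hz0 (congrArg Subtype.val h)
  have h1 : algebraMap E (extendScalars hle) u' = z' ^ n := by
    apply Subtype.ext
    exact huz
  have h2 : u' ^ d = (Algebra.norm E z') ^ n := by
    rw [← map_pow, ← h1, Algebra.norm_algebraMap]
  have hfd : FiniteDimensional E (extendScalars hle) :=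
    Module.finite_of_finrank_pos (Nat.pos_of_ne_zero hfin)
  have hν0 : Algebra.norm E z' ≠ 0 := fun h => hz'0 (Algebra.norm_eq_zero_iff.1 h)
  refine ⟨((Algebra.norm E z' : E) : M), (Algebra.norm E z' : E).2, ?_, ?_⟩
  · intro h
    exact hν0 (Subtype.ext h)
  · exact congrArg Subtype.val h2

theorem relfinrank_FF_ne_zero {N N' : ℕ} [NeZero N] [NeZero N'] (h : N ∣ N') :
    (FF Qb N).relfinrank (FF Qb N') ≠ 0 := by
  intro h0
  have h1 := IntermediateField.relfinrank_mul_relfinrank (BR10_j_le N) (BR10_FF_mono h)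
  rw [h0, mul_zero, BR10_relfinrank_j] at h1
  have h2 : dedekindPsi N' ≠ 0 := by
    rw [← Fermat.Agent.S24.card_cosets]
    exact Nat.card_pos.ne'
  exact h2 h1.symm

/-- S0. Raising the level. -/
theorem coreKI_of_coreAux (H : CoreAux) : CoreKI := by
  intro q _ hq M0 hM0 hqM
  set r : ℕ := if q = 2 then 9 else 4 with hr
  have hr0 : r ≠ 0 := by rw [hr]; split_ifs <;> norm_num
  have hqr : ¬ q ∣ r := by
    rw [hr]
    split_ifs with h2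
    · rw [h2]; norm_num
    · intro h4
      have : q ∣ 2 ^ 2 := by simpa using h4
      exact h2 ((Nat.prime_dvd_prime_iff_eq hq Nat.prime_two).1 (hq.dvd_of_dvd_pow this))
  set N1 : ℕ := r * M0 with hN1
  have hN10 : N1 ≠ 0 := mul_ne_zero hr0 hM0
  have hqN : ¬ q ∣ N1 := fun h => (hq.dvd_mul.1 h).elim hqr hqM
  have hMN : M0 ∣ N1 := Dvd.intro_left r rfl
  obtain ⟨c, hc, Hc⟩ := H q hq N1 hN10 hqN
    (fun h2 => by rw [hN1, hr, if_neg h2]; exact Dvd.intro _ rfl)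
    (fun h2 => by rw [hN1, hr, if_pos h2]; exact Dvd.intro _ rfl)
  have : NeZero (q ^ 2 * M0) := ⟨mul_ne_zero (pow_ne_zero 2 hq.ne_zero) hM0⟩
  have : NeZero (q ^ 2 * N1) := ⟨mul_ne_zero (pow_ne_zero 2 hq.ne_zero) hN10⟩
  have hdvd2 : q ^ 2 * M0 ∣ q ^ 2 * N1 := Nat.mul_dvd_mul_left _ hMN
  have hdvd1 : q * M0 ∣ q * N1 := Nat.mul_dvd_mul_left _ hMN
  have hfin := relfinrank_FF_ne_zero hdvd2
  refine ⟨c * (FF Qb (q ^ 2 * M0)).relfinrank (FF Qb (q ^ 2 * N1)),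
    Nat.mul_pos hc (Nat.pos_of_ne_zero hfin), ?_⟩
  intro A hA L _ hL n hn ζ hζ u hu hdef hK hT hN
  have hu' : u ∈ FF Qb (q ^ 2 * N1) := BR8_FF_le Qb hdvd2 hu
  have h1 := Hc A hA L hL n hn ζ hζ u hu' (defOver_of_dvd hdvd2 hdef)
    (isKummer_of_dvd _ _ hdvd2 hfin n u hK) (kummerEquiv_of_dvd hdvd1 hT)
    (by
      rw [normFF_of_dvd hq hM0 hN10 hqM hqN hMN ζ hζ u hu hu']
      exact kummerEquiv_of_dvd hdvd1 hN)
  obtain ⟨z, hz, hz0, hzu⟩ := h1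
  rw [one_mul] at hzu
  obtain ⟨y, hy, hy0, hyu⟩ := pow_descent_norm (BR8_FF_le Qb hdvd2) hfin n (u ^ c) z
    (pow_mem hu c) hz hz0 hzu
  exact ⟨y, hy, hy0, by rw [one_mul, pow_mul, hyu]⟩

end Fermat.Agent.GT.Brg
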