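import Fermat.Agent.GT.Brg.Assemble
import Fermat.Agent.GT.Loc.N1Conc
import Fermat.Agent.GT.Loc.Conc.MidInst
import Fermat.Agent.GT.Loc.Conc.UInt
import Fermat.Agent.GT.Val.Conc.Par

/-!
# GT-BRG, file `LocAllInst`: the last input `LocAll` of `Brg/Assemble.lean`

For a good field `L` the base function is `t = h_r` (`r = 3` if `q = 2`, `r = 2` otherwise), in the form
`c.tF L hr` of UNIT.
-/

set_option autoImplicit false
set_option synthInstance.maxHeartbeats 400000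

noncomputable section

namespace Fermat.Agent.GT.Brg

open Fermat.Agent.GR Fermat.Agent.GR.E Fermat.Agent.GR.D.Vert Fermat.Agent.GT Fermat.Agent.GT.EMB
  ModularCurve AlgebraicCurve IntermediateField Fermat.Agent.GT.Val.Conc Fermat.Agent.C36.Unit
  Fermat.Agent.GS Fermat.Agent.GS.Inst

variable {q N1 : ℕ} [NeZero q] [NeZero N1] [NeZero (q * N1)] [NeZero (q ^ 2 * N1)]
  {A : ValuationSubring Qb}

set_option maxHeartbeats 2000000 in
/-- `BaseHyp` and `TPar` for `t = c.tF` and `t⁻¹`. -/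
theorem LocAllInst_par (c : BaseCase) (hq : q.Prime) (hqN : ¬ q ∣ N1) (hr : c.r ∣ N1)
    (hA : A.LiesOverPrime q) (L : IntermediateField ℚ Qb) [FiniteDimensional ℚ L]
    [IsDiscreteValuationRing (RL A L)] {L' : Type} [Field L'] [Algebra L L']
    {R' : ValuationSubring L'} [IsDiscreteValuationRing R'] {ζ' : L'ˣ} {ϖ : RL A L}
    (C : Val.Ctx (RL A L) R' q N1 ζ' ϖ) :
    Val.BaseHyp (RL A L) q N1 ϖ ∧ Val.TPar (RL A L) q N1 ϖ (c.tF L hr) ∧
      Val.TPar (RL A L) q N1 ϖ (c.tF L hr)⁻¹ := by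
  cases c
  · have hM := GR.D.Top.hasModel_h2 N1 hr q hq hqN A hA
    have key := Val.par_of_hasModel hA L C isHaupt_h2 hr hM
    have e : (⟨baseFn L Fermat.Agent.Lib.Hauptmodul.h2, hM.mem L⟩ : FF L N1) =
        BaseCase.two.tF L hr := Subtype.ext (GR.D.Top.CaseH2_baseFn L)
    rw [e] at key
    exact key
  · have hM := GR.D.Top.hasModel_h3 N1 hr q hq hqN A hA
    have key := Val.par_of_hasModel hA L C isHaupt_h3 hr hM
    have e : (⟨baseFn L Fermat.Agent.Lib.Hauptmodul.h3, hM.mem L⟩ : FF L N1) =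
        BaseCase.three.tF L hr := Subtype.ext (GR.D.Top.caseH3_baseFn L)
    rw [e] at key
    exact key

set_option maxHeartbeats 4000000 in
/-- `Glue.LocIn` for `t = c.tF ^ ε` over a good field. -/
theorem LocAllInst_locIn (c : BaseCase) (hq : q.Prime) (hqN : ¬ q ∣ N1) (hl : c.lvl ∣ N1)
    (hr : c.r ∣ N1) (hqr : q ≠ c.r) (hA : A.LiesOverPrime q) {S : Finset Qb}
    (L : IntermediateField ℚ Qb) (hG : GoodField A S L) [FiniteDimensional ℚ L]
    [IsDiscreteValuationRing (RL A L)] {L' : Type} [Field L'] [Algebra L L']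
    {R' : ValuationSubring L'} [IsDiscreteValuationRing R'] {ζ' : L'ˣ}
    (C : Val.Ctx (RL A L) R' q N1 ζ' ((q : ℕ) : RL A L)) (e : L' →+* Qb)
    (he : e.comp (algebraMap L L') = algebraMap L Qb)
    (B : Val.BaseHyp (RL A L) q N1 ((q : ℕ) : RL A L)) (ε : ℤ) (hε : ε = 1 ∨ ε = -1)
    (ht : Val.TPar (RL A L) q N1 ((q : ℕ) : RL A L) (c.tF L hr ^ ε)) :
    Glue.LocIn (RL A L) R' q N1 ζ' ((q : ℕ) : RL A L) (c.tF L hr ^ ε) := by
  obtain ⟨σ, hσ, hfr⟩ := exists_frobLift hq hA hG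
  obtain ⟨ι⟩ : Nonempty (Qb →+* ℂ) := S24.nonempty_iotaC
  have hchar : CharP (IsLocalRing.ResidueField (RL A L)) q :=
    GR.D.Top.charP_residueField A q hq hA L
  have hfin : Finite ((RL A L) ⧸ Ideal.span {((q : ℕ) : RL A L)}) := Loc.N1C_finite_quot _ hq
  have hr1 : c.r ∣ q * N1 := hr.mul_left q
  have hl1 : c.lvl ∣ q * N1 := hl.mul_left q
  have hrq : c.r * q ∣ q * N1 := by rw [mul_comm]; exact mul_dvd_mul_left q hr
  have hN : c.lvl * q ∣ q * N1 := by rw [mul_comm]; exact mul_dvd_mul_left q hl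
  have Ct := Loc.N1C_towerChart c hq hqN hr A hA L C.irr ε hε
  have T := towerData (R := RL A L) (ι.comp (algebraMap L Qb)) hq hqN C.irr (Loc.N1C_isWq hq hqN)
  have hS : SatChart2 ((q : ℕ) : RL A L) (gaussO (RL A L) (q * N1)) (Val.Ozero' (RL A L) q N1)
      (chart (RL A L) ({c.tF L hr1 ^ ε} : Set (FF L (q * N1)))) := by
    have h := Ct.satChart2 T
    rw [← Loc.up_tau (hr := hr) (hr1 := hr1)]
    exact h
  have h0 : c.tF L hr ≠ 0 := fun h => (c.tF_transcendental L hr) (h ▸ isAlgebraic_zero)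
  refine ⟨zpow_ne_zero _ h0, Loc.three C B ht (Loc.hred_conc C e he),
    Loc.midInC C hqr hl ht hε (Loc.unitInt c L hq hqr hqN hl hr1 hrq hl1 hN ε hε) hS,
    fun x hx => (Loc.chart₁_le C ht hx).1, fun x hx => (Loc.chart₁_le C ht hx).2, ?_⟩
  intro 𝔫 h𝔫 h₁ h₂
  exact Loc.N1C_regNode c hq hqN hl hr C.irr rfl σ.toRingEquiv (fun x => (hσ x).symm) hfr ε hε Ct
    𝔫 h𝔫 h₁ h₂

set_option maxHeartbeats 4000000 in
/-- THE LAST INPUT. -/
theorem locAll : LocAll := by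
  intro q N1 _ _ _ _ hq hqN hcase A hA ζ hζ
  refine ⟨∅, fun x hx => absurd hx (Finset.notMem_empty x), ?_⟩
  intro L hG _ _
  obtain ⟨c, hl, hqr⟩ : ∃ c : BaseCase, c.lvl ∣ N1 ∧ q ≠ c.r := by
    rcases hcase with ⟨h2, h9⟩ | ⟨h2, h4⟩
    · exact ⟨BaseCase.three, h9, by rw [h2]; decide⟩
    · exact ⟨BaseCase.two, h4, h2⟩
  have hr : c.r ∣ N1 := c.r_dvd_lvl.trans hl
  have := hG.fin
  have C := ctx (N1 := N1) hq hA hζ hqN L hG.inert
  obtain ⟨B, ht, ht'⟩ := LocAllInst_par c hq hqN hr hA L C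
  have Z1 := LocAllInst_locIn c hq hqN hl hr hqr hA L hG C (algebraMap (Lz L ζ) Qb) rfl B 1
    (Or.inl rfl) (by rw [zpow_one]; exact ht)
  have Z2 := LocAllInst_locIn c hq hqN hl hr hqr hA L hG C (algebraMap (Lz L ζ) Qb) rfl B (-1)
    (Or.inr rfl) (by rw [zpow_neg_one]; exact ht')
  rw [zpow_one] at Z1
  rw [zpow_neg_one] at Z2
  exact ⟨c.tF L hr, B, ht, ht', Z1, Z2⟩

/-- `CoreKI`, unconditionally. -/
theorem coreKI : CoreKI := coreKI_of_locAll locAll

end Fermat.Agent.GT.Brg
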