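import Fermat.Agent.GT.Cert
import Fermat.Agent.GT.Brg.LevelUp
import Fermat.Agent.GT.Brg.Field
import Fermat.Agent.GT.Brg.Level
import Fermat.Agent.GT.Brg.Descent
import Fermat.Agent.GT.Brg.Approx
import Fermat.Agent.GT.Brg.Div

/-! GT-BRG, file `Main`: `CoreKI` from the geometric interface `GeoAll`. -/

set_option autoImplicit false
set_option synthInstance.maxHeartbeats 400000

noncomputable section

namespace Fermat.Agent.GT.Brg

open Fermat.Agent.GR Fermat.Agent.GR.E Fermat.Agent.GT Fermat.Agent.GT.EMB ModularCurve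
  AlgebraicCurve IntermediateField

theorem Main_cR_eq (A : ValuationSubring Qb) (L : IntermediateField ℚ Qb) (N : ℕ) (r : RL A L) :
    cR A L N r = cL L N (r : L) := rfl

theorem Main_mapFF_const {K K' : Type*} [Field K] [Field K'] (φ : K →+* K') (N : ℕ) (c : K) :
    mapFF φ N (algebraMap K (FF K N) c) = algebraMap K' (FF K' N) (φ c) := by
  apply Subtype.ext
  rw [coe_mapFF]
  change coeffMap φ (algebraMap K (LaurentSeries K) c) = algebraMap K' (LaurentSeries K') (φ c)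
  rw [algebraMap_laurentSeries_eq_single, algebraMap_laurentSeries_eq_single, coeffMap_single]

theorem Main_cR_natCast (A : ValuationSubring Qb) (L : IntermediateField ℚ Qb) (N : ℕ) (m : ℕ) :
    cR A L N ((m : ℕ) : RL A L) = ((m : ℕ) : FF L N) := by
  unfold cR
  rw [map_natCast]

theorem Main_mem_of_pow_mem {K : Type*} [Field K] (A : ValuationSubring K) {x : K} {n : ℕ}
    (hn : 0 < n) (h : x ^ n ∈ A) : x ∈ A := by
  rcases A.mem_or_inv_mem x with h1 | h1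
  · exact h1
  · by_cases hx : x = 0
    · rw [hx]; exact A.zero_mem
    · have e : x = x ^ n * (x⁻¹) ^ (n - 1) := by
        obtain ⟨m, rfl⟩ : ∃ m, n = m + 1 := ⟨n - 1, by omega⟩
        rw [Nat.add_sub_cancel, pow_succ, inv_pow]
        field_simp
      rw [e]
      exact A.mul_mem _ _ h (A.pow_mem h1 _)

theorem Main_mapFF_mapFF {K K' K'' : Type*} [Field K] [Field K'] [Field K''] (φ : K →+* K')
    (ψ : K' →+* K'') (N : ℕ) (x : FF K N) :
    mapFF ψ N (mapFF φ N x) = mapFF (ψ.comp φ) N x := by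
  apply Subtype.ext
  rw [coe_mapFF, coe_mapFF, coe_mapFF, coeffMap_coeffMap]

theorem Main_final {F : Type*} [Field F] {a' u y T g : F} {c1 c2 n : ℕ} (hg : g ^ n = a' ^ c2)
    (hg0 : g ≠ 0) (hy : y ≠ 0) (h : (a' * u ^ c1 * y ^ n) ^ c2 = T ^ n) :
    u ^ (c1 * c2) = (T / (g * y ^ c2)) ^ n := by
  rw [div_pow, mul_pow, hg, eq_div_iff (mul_ne_zero (hg ▸ pow_ne_zero n hg0)
    (pow_ne_zero _ (pow_ne_zero _ hy))), ← h]
  ring

theorem Main_mapFF_injective {K K' : Type*} [Field K] [Field K'] (φ : K →+* K') (N : ℕ) :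
    Function.Injective (mapFF φ N) := (mapFF φ N).injective

set_option maxHeartbeats 4000000 in
/-- The core at the auxiliary level `q² N1`. -/
theorem core_of_geoFam (hcert : CertDescent) {q N1 c1 c2 : ℕ} [NeZero q] (hq : q.Prime)
    (hN1 : N1 ≠ 0) (hqN : ¬ q ∣ N1) {A : ValuationSubring Qb} (hA : A.LiesOverPrime q) {ζ : Qbˣ}
    (hζ : IsPrimitiveRoot ζ q) {S : Finset Qb}
    {𝒪 : ∀ L : IntermediateField ℚ Qb, Fin 3 → ValuationSubring (FF L (q ^ 2 * N1))}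
    (hS : ∀ x ∈ S, InertFixedElt A x) (G : GeoFam q N1 c1 c2 A ζ S 𝒪)
    (L : IntermediateField ℚ Qb) [FiniteDimensional ℚ L] (hL : InertFixed A L) {n : ℕ}
    (hn : ¬ q ∣ n) (u : FF Qb (q ^ 2 * N1)) (hdef : BR3_DefOver (q ^ 2 * N1) L u)
    (hK : IsKummer (N := q ^ 2 * N1) n (u : LaurentSeries Qb)) (hN : NormTrivQb q N1 n ζ u) :
    KummerEquiv (q ^ 2 * N1) n 1 ((u : LaurentSeries Qb) ^ (c1 * c2)) := by
  have hn0 : 0 < n := Nat.pos_of_ne_zero (fun h => hn (h ▸ dvd_zero q))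
  have : NeZero (q ^ 2 * N1) := ⟨mul_ne_zero (pow_ne_zero _ hq.ne_zero) hN1⟩
  -- step 1
  obtain ⟨L0, hL0, hle⟩ := exists_goodField_ge L hL S hS
  -- step 2
  obtain ⟨u0', hu0', hu0eq⟩ := BR3_mono (q ^ 2 * N1) hle hdef
  set u0 : FF L0 (q ^ 2 * N1) := ⟨u0', hu0'⟩ with hu0
  have hmap0 : mapFF (algebraMap L0 Qb) (q ^ 2 * N1) u0 = u := Subtype.ext hu0eq
  have hu00 : u0 ≠ 0 := by
    intro h
    apply hK.1
    rw [← hmap0, h, map_zero]
    rfl
  -- step 3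
  have hNT := normTriv_of_normTrivQb hq hN1 hqN hn0 hζ L0 u0 hu00 (by rw [hmap0]; exact hN)
  -- step 4
  obtain ⟨a, z, b, ha, hz, hb, hcong⟩ := G.val5 L0 hL0 n hn u0 hu00 hNT
  -- step 5
  choose β hβ using fun i => IsAlgClosed.exists_pow_nat_eq (((b i : L0) : Qb)) hn0
  have hbA : ∀ i, (((b i : L0) : Qb)) ∈ A := fun i => (b i).2
  have hbA' : ∀ i, (((b i : L0) : Qb))⁻¹ ∈ A := by
    intro i
    obtain ⟨v, hv⟩ := hb i
    have h1 : (((b i : L0) : Qb)) * ((((v⁻¹ : (RL A L0)ˣ) : RL A L0) : L0) : Qb) = 1 := by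
      have h2 : (b i) * ((v⁻¹ : (RL A L0)ˣ) : RL A L0) = 1 := by rw [← hv, Units.mul_inv]
      have h3 := congrArg (fun t : RL A L0 => ((t : L0) : Qb)) h2
      simpa using h3
    rw [← eq_inv_of_mul_eq_one_right h1]
    exact ((v⁻¹ : (RL A L0)ˣ) : RL A L0).2
  have hβI : ∀ i, InertFixedElt A (β i) := fun i =>
    inertFixedElt_of_pow hq hA hn (fun τ hτ => hL0.inert τ hτ (b i : L0)) (hbA i) (hbA' i) (hβ i)
  -- step 6
  have := hL0.fin
  obtain ⟨L1, hL1', hle1⟩ := exists_goodField_ge L0 hL0.inert (S ∪ Finset.univ.image β) (by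
    intro x hx
    rcases Finset.mem_union.1 hx with h | h
    · exact hS x h
    · obtain ⟨i, -, rfl⟩ := Finset.mem_image.1 h
      exact hβI i)
  have hL1 : GoodField A S L1 := hL1'.mono Finset.subset_union_left
  have hβL1 : ∀ i, β i ∈ L1 := fun i =>
    hL1'.big _ (Finset.mem_union_right _ (Finset.mem_image_of_mem _ (Finset.mem_univ i)))
  -- step 7
  set φ : FF L0 (q ^ 2 * N1) →+* FF L1 (q ^ 2 * N1) :=
    mapFF (IntermediateField.inclusion hle1).toRingHom (q ^ 2 * N1) with hφ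
  obtain ⟨e, hnilp⟩ := (G.vert L0 hL0).nilp
  have htr : ∀ i, φ (cL L0 (q ^ 2 * N1) a * u0 ^ c1 * z ^ n - cR A L0 (q ^ 2 * N1) (b i)) ∈
      (𝒪 L1 i).nonunits := by
    intro i
    refine map_mem_nonunits φ (G.mono L0 L1 hL0 hL1 hle1 i)
      (π := cR A L0 (q ^ 2 * N1) ((q : ℕ) : RL A L0)) ?_ ?_ (hnilp i) (hcong i)
    · rw [Main_cR_natCast]
      exact Nat.cast_ne_zero.2 hq.ne_zero
    have h1 := (G.vert L1 hL1).mem i
    rw [map_natCast] at h1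
    rw [Main_cR_natCast, map_natCast]
    exact h1
  -- step 8
  have hβA : ∀ i, β i ∈ A := fun i => Main_mem_of_pow_mem A hn0 (by rw [hβ i]; exact hbA i)
  have hβA' : ∀ i, (β i)⁻¹ ∈ A := fun i =>
    Main_mem_of_pow_mem A hn0 (by rw [inv_pow, hβ i]; exact hbA' i)
  set βF : Fin 3 → FF L1 (q ^ 2 * N1) := fun i => cL L1 (q ^ 2 * N1) ⟨β i, hβL1 i⟩ with hβF
  have hβmem : ∀ i k, βF i ∈ 𝒪 L1 k := fun i k =>
    G.const L1 hL1 k ⟨⟨β i, hβL1 i⟩, hβA i⟩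
  have hβinv : ∀ i, (βF i)⁻¹ ∈ 𝒪 L1 i := by
    intro i
    have h1 := G.const L1 hL1 i ⟨(⟨β i, hβL1 i⟩ : L1)⁻¹, by
      show algebraMap L1 Qb ((⟨β i, hβL1 i⟩ : L1)⁻¹) ∈ A
      rw [map_inv₀]
      exact hβA' i⟩
    rw [Main_cR_eq] at h1
    rw [hβF]
    simp only
    rw [← map_inv₀]
    exact h1
  have hβ0 : ∀ i, β i ≠ 0 := by
    intro i h0
    have h1 := hβ i
    rw [h0, zero_pow hn0.ne'] at h1
    have h2 : (b i : L0) = 0 := Subtype.ext h1.symm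
    exact (hb i).ne_zero (Subtype.ext h2)
  have hβF0 : ∀ i, βF i ≠ 0 := by
    intro i
    rw [hβF]
    refine (map_ne_zero (algebraMap L1 (FF L1 (q ^ 2 * N1)))).2 ?_
    intro h
    exact hβ0 i (congrArg Subtype.val h)
  have hφb : ∀ i, φ (cR A L0 (q ^ 2 * N1) (b i)) = βF i ^ n := by
    intro i
    rw [Main_cR_eq, hφ, Main_mapFF_const, hβF]
    simp only
    rw [← map_pow]
    congr 1
    apply Subtype.ext
    rw [SubmonoidClass.coe_pow]
    exact (hβ i).symm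
  -- step 9
  set a1 : L1 := IntermediateField.inclusion hle1 a with ha1
  have ha10 : a1 ≠ 0 := by
    rw [ha1]
    intro h
    exact ha ((IntermediateField.inclusion hle1).injective (h.trans (map_zero _).symm))
  have hW : φ (cL L0 (q ^ 2 * N1) a * u0 ^ c1 * z ^ n) =
      cL L1 (q ^ 2 * N1) a1 * (φ u0) ^ c1 * (φ z) ^ n := by
    rw [map_mul, map_mul, map_pow, map_pow, hφ, Main_mapFF_const]
    rfl
  obtain ⟨z', hz', hw⟩ := exists_normalise (G.sep L1 hL1)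
    (w := cL L1 (q ^ 2 * N1) a1 * (φ u0) ^ c1 * (φ z) ^ n) (n := n) βF hβmem hβinv hβF0 (by
      intro i
      have h1 := htr i
      rw [map_sub, hW, hφb i] at h1
      exact h1)
  have hφz : φ z ≠ 0 := by
    rw [Ne, map_eq_zero_iff _ φ.injective]
    exact hz
  have hy0 : φ z / z' ≠ 0 := div_ne_zero hφz hz'
  set w0 : FF L1 (q ^ 2 * N1) := cL L1 (q ^ 2 * N1) a1 * (φ u0) ^ c1 * (φ z / z') ^ n with hw0
  have hw0eq : cL L1 (q ^ 2 * N1) a1 * (φ u0) ^ c1 * (φ z) ^ n / z' ^ n = w0 := by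
    rw [hw0, div_pow, mul_div_assoc]
  rw [hw0eq] at hw
  -- step 10
  have hmap1 : mapFF (algebraMap L1 Qb) (q ^ 2 * N1) (φ u0) = u := by
    rw [hφ, Main_mapFF_mapFF, ← hmap0]
    rfl
  have hK1 : IsKummer (N := q ^ 2 * N1) n
      (coeffMap (algebraMap L1 Qb) ((φ u0 : FF L1 (q ^ 2 * N1)) : LaurentSeries L1)) := by
    rw [← coe_mapFF, hmap1]
    exact hK
  have hdiv : DivisibleAtPlaces (RL A L1) n w0 :=
    divisibleAtPlaces_const_mul_pow_mul_pow (RL A L1)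
      (divisibleAtPlaces_of_isKummer hcert L1 (RL A L1) (q ^ 2 * N1) n hn0 (φ u0) hK1) ha10 c1 hy0
  -- step 11
  set y : FF Qb (q ^ 2 * N1) := mapFF (algebraMap L1 Qb) (q ^ 2 * N1) (φ z / z') with hy
  have hyne : y ≠ 0 := by
    rw [hy]
    exact (map_ne_zero (mapFF (algebraMap L1 Qb) (q ^ 2 * N1))).2 hy0
  have haQ : algebraMap L1 Qb a1 ≠ 0 := (map_ne_zero (algebraMap L1 Qb)).2 ha10
  have hmapw : mapFF (algebraMap L1 Qb) (q ^ 2 * N1) w0 =
      algebraMap Qb (FF Qb (q ^ 2 * N1)) (algebraMap L1 Qb a1) * u ^ c1 * y ^ n := by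
    rw [hw0, map_mul, map_mul, map_pow, map_pow, Main_mapFF_const, hmap1]
  have hw00 : w0 ≠ 0 :=
    mul_ne_zero (mul_ne_zero ((map_ne_zero (algebraMap L1 (FF L1 (q ^ 2 * N1)))).2 ha10)
      (pow_ne_zero _ ((map_ne_zero φ).2 hu00))) (pow_ne_zero _ hy0)
  have hNT1 : NormTriv q N1 n ζ L1 w0 :=
    normTriv_of_normTrivQb hq hN1 hqN hn0 hζ L1 w0 hw00 (by
      rw [hmapw]
      exact NormTrivQb.const_mul_pow_mul_pow hq hN1 hqN hn0 hζ hN _ haQ c1 y hyne)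
  -- step 12
  obtain ⟨t, ht, ht0, hteq⟩ := G.geo L1 hL1 n hn w0 hw hdiv hNT1
  obtain ⟨γ, hγ⟩ := IsAlgClosed.exists_pow_nat_eq ((algebraMap L1 Qb a1) ^ c2) hn0
  have hγ0 : γ ≠ 0 := by
    rintro rfl
    rw [zero_pow hn0.ne'] at hγ
    exact pow_ne_zero c2 haQ hγ.symm
  have hT : (algebraMap Qb (FF Qb (q ^ 2 * N1)) (algebraMap L1 Qb a1) * u ^ c1 * y ^ n) ^ c2 =
      (⟨t, ht⟩ : FF Qb (q ^ 2 * N1)) ^ n := by
    rw [← hmapw]
    apply Subtype.ext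
    rw [SubmonoidClass.coe_pow, SubmonoidClass.coe_pow, coe_mapFF, hteq, one_mul]
  have hfin := Main_final (g := algebraMap Qb (FF Qb (q ^ 2 * N1)) γ)
    (by rw [← map_pow, hγ, map_pow])
    ((map_ne_zero (algebraMap Qb (FF Qb (q ^ 2 * N1)))).2 hγ0) hyne hT
  have hT0 : (⟨t, ht⟩ : FF Qb (q ^ 2 * N1)) ≠ 0 := by
    intro h
    exact ht0 (congrArg Subtype.val h)
  refine ⟨_, ((⟨t, ht⟩ : FF Qb (q ^ 2 * N1)) /
    (algebraMap Qb (FF Qb (q ^ 2 * N1)) γ * y ^ c2)).2, ?_, ?_⟩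
  · intro h
    have h2 : ((⟨t, ht⟩ : FF Qb (q ^ 2 * N1)) /
      (algebraMap Qb (FF Qb (q ^ 2 * N1)) γ * y ^ c2)) = 0 := Subtype.ext h
    exact div_ne_zero hT0 (mul_ne_zero ((map_ne_zero (algebraMap Qb (FF Qb (q ^ 2 * N1)))).2 hγ0)
      (pow_ne_zero _ hyne)) h2
  · rw [one_mul, ← SubmonoidClass.coe_pow, ← SubmonoidClass.coe_pow, hfin]

theorem certDescent : CertDescent := fun L N n h w hn c => Cert.cert_descent L N n hn h w c

theorem coreAux_of_geoAll (hgeo : GeoAll) : CoreAux := by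
  intro q _ hq N1 hN1 hqN h4 h9
  have hcase : (q = 2 ∧ 9 ∣ N1) ∨ (q ≠ 2 ∧ 4 ∣ N1) := by
    by_cases h2 : q = 2
    · exact Or.inl ⟨h2, h9 h2⟩
    · exact Or.inr ⟨h2, h4 h2⟩
  obtain ⟨c1, c2, hc1, hc2, hG⟩ := hgeo q hq N1 hN1 hqN hcase
  refine ⟨c1 * c2, Nat.mul_pos hc1 hc2, ?_⟩
  intro A hA L _ hL n hn ζ hζ u hu hdef hK hT hF
  obtain ⟨S, 𝒪, hS, G⟩ := hG A hA ζ hζ
  exact core_of_geoFam certDescent hq hN1 hqN hA hζ hS G L hL hn ⟨u, hu⟩ hdef hK ⟨hT, hF⟩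

/-- THE EXPORT OF GT-BRG. -/
theorem coreKI_of_geoAll (hgeo : GeoAll) : CoreKI :=
  coreKI_of_coreAux (coreAux_of_geoAll hgeo)

end Fermat.Agent.GT.Brg
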