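import Fermat.Agent.GT.Cert
import Fermat.Agent.GT.EMB.Norm2

/-!
# Project GT, module BRG, step S2: the two norms over a field of definition `L`

`phi1`, `phi2 : FF K (q N1) → FF K (q² N1)` (inclusion, `f ↦ f(t^q)`), `nm1`, `nm2` the field norms
along them; compatibility with the extension of constants `L → Q̄`.
-/

set_option autoImplicit false
set_option synthInstance.maxHeartbeats 400000

noncomputable section

namespace Fermat.Agent.GT.Brg

open Fermat.Agent.GR Fermat.Agent.GR.E ModularCurve AlgebraicCurve IntermediateField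
open Fermat.Agent.GT Fermat.Agent.GT.EMB Fermat.Agent.GT.Cert

/-- The norm commutes with a base change which maps a basis to a basis. -/
theorem norm_map_of_basis {E E' Et Et' : Type*} [Field E] [Field E'] [Algebra E E']
    [Field Et] [Field Et'] [Algebra Et Et'] (φ : E →+* Et) (φ' : E' →+* Et')
    (hcomm : ∀ x, φ' (algebraMap E E' x) = algebraMap Et Et' (φ x))
    {I : Type*} [Fintype I] [DecidableEq I] (b : Module.Basis I E E')
    (bt : Module.Basis I Et Et') (hb : ∀ i, bt i = φ' (b i)) (x : E') :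
    φ (Algebra.norm E x) = Algebra.norm Et (φ' x) := by
  rw [Algebra.norm_eq_matrix_det b, Algebra.norm_eq_matrix_det bt, RingHom.map_det]
  congr 1
  ext i j
  rw [RingHom.mapMatrix_apply, Matrix.map_apply, Algebra.leftMulMatrix_eq_repr_mul,
    Algebra.leftMulMatrix_eq_repr_mul]
  have h1 : φ' x * bt j = ∑ l, φ (b.repr (x * b j) l) • bt l := by
    rw [hb, ← map_mul]
    conv_lhs => rw [← b.sum_repr (x * b j)]
    rw [map_sum]
    refine Finset.sum_congr rfl fun l _ => ?_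
    rw [Algebra.smul_def, map_mul, hcomm, hb, Algebra.smul_def]
  rw [h1, bt.repr_sum_self]

section Comb

variable {k Ω : Type*} [Field k] [CharZero k] [Field Ω] [Algebra k Ω] [IsAlgClosed Ω]
  [Algebra.IsAlgebraic k Ω]

/-- Finitely many elements of `FF Ω N` are `Ω`-linear combinations of elements of `FF k N`, over a
common `k`-linearly independent family of constants. -/
theorem exists_comb_family (N : ℕ) {J : Type*} [Finite J] (u : J → LaurentSeries Ω)
    (hu : ∀ i, u i ∈ FF Ω N) :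
    ∃ (r : ℕ) (c : Fin r → Ω) (f : J → Fin r → LaurentSeries k), LinearIndependent k c ∧
      (∀ i m, f i m ∈ FF k N) ∧
      ∀ i, u i = ∑ m, HahnSeries.C (c m) * coeffMap (algebraMap k Ω) (f i m) := by
  classical
  obtain ⟨M, hM, hdef⟩ := exists_defOver_family (k := k) N u hu
  let e := Module.finBasis k M
  choose f hf using fun i => exists_components M e (hdef i)
  refine ⟨_, fun m => (e m : Ω), f, ?_, fun i m => ?_, hf⟩
  · exact e.linearIndependent.map' M.val.toLinearMap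
      (LinearMap.ker_eq_bot.2 M.val.toRingHom.injective)
  · apply C.mem_FF_of_coeffMap_mem (Ω := Ω)
    refine trace_component (k := k) (FF Ω N : Set (LaurentSeries Ω)) (zero_mem _)
      (fun a b ha hb => add_mem ha hb) (fun c a ha => mul_mem (C.C_mem_intermediateField c) ha)
      (fun τ a ha => E.coeffMap_mem_FF _ N ha) M e (f i) ?_ m
    rw [← hf i]
    exact hu i

variable {N N' : ℕ} [Algebra (FF k N) (FF k N')] [Algebra (FF Ω N) (FF Ω N')]

theorem coe_algebraMap_const (K : Type*) [Field K] (N : ℕ) (c : K) :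
    ((algebraMap K (FF K N) c : FF K N) : LaurentSeries K) = HahnSeries.C c := by
  change algebraMap K (LaurentSeries K) c = _
  rw [algebraMap_laurentSeries_eq_single]
  rfl

omit [CharZero k] [IsAlgClosed Ω] [Algebra.IsAlgebraic k Ω] in
theorem const_mul_smul
    (hj : ∀ x, mapFF (algebraMap k Ω) N' (algebraMap (FF k N) (FF k N') x) =
      algebraMap (FF Ω N) (FF Ω N') (mapFF (algebraMap k Ω) N x))
    (hconst : ∀ c : Ω, algebraMap (FF Ω N) (FF Ω N') (algebraMap Ω (FF Ω N) c) =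
      algebraMap Ω (FF Ω N') c) (c : Ω) (x : FF k N) (y : FF k N') :
    (algebraMap Ω (FF Ω N) c * mapFF (algebraMap k Ω) N x) • mapFF (algebraMap k Ω) N' y =
      algebraMap Ω (FF Ω N') c * mapFF (algebraMap k Ω) N' (x • y) := by
  rw [Algebra.smul_def, map_mul, hconst, ← hj, mul_assoc, ← map_mul, Algebra.smul_def x y]

/-- linear independence is preserved by the extension of constants. -/
theorem linearIndependent_mapFF
    (hj : ∀ x, mapFF (algebraMap k Ω) N' (algebraMap (FF k N) (FF k N') x) =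
      algebraMap (FF Ω N) (FF Ω N') (mapFF (algebraMap k Ω) N x))
    (hconst : ∀ c : Ω, algebraMap (FF Ω N) (FF Ω N') (algebraMap Ω (FF Ω N) c) =
      algebraMap Ω (FF Ω N') c)
    {I : Type*} (b : I → FF k N') (hb : LinearIndependent (FF k N) b) :
    LinearIndependent (FF Ω N) (fun i => mapFF (algebraMap k Ω) N' (b i)) := by
  classical
  rw [linearIndependent_iff']
  intro s g hg i hi
  obtain ⟨r, c, f, hc, hf, hgf⟩ := exists_comb_family (k := k) N
    (fun j : s => ((g j : FF Ω N) : LaurentSeries Ω)) (fun j => (g j).2)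
  -- rewrite `g j`
  have hg' : ∀ j : s, g j = ∑ m, algebraMap Ω (FF Ω N) (c m) *
      mapFF (algebraMap k Ω) N ⟨f j m, hf j m⟩ := by
    intro j
    apply Subtype.ext
    rw [hgf j, AddSubmonoidClass.coe_finsetSum]
    refine Finset.sum_congr rfl fun m _ => ?_
    rw [MulMemClass.coe_mul, coe_algebraMap_const, coe_mapFF]
  have h1 : ∑ m, HahnSeries.C (c m) * coeffMap (algebraMap k Ω)
      (((∑ j : s, (⟨f j m, hf j m⟩ : FF k N) • b j : FF k N') : LaurentSeries k)) = 0 := by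
    have h2 := congrArg (fun x : FF Ω N' => (x : LaurentSeries Ω)) hg
    simp only [ZeroMemClass.coe_zero] at h2
    rw [← h2, ← Finset.sum_coe_sort s, AddSubmonoidClass.coe_finsetSum]
    have h3 : ∀ j : s, ((g j • mapFF (algebraMap k Ω) N' (b j) : FF Ω N') : LaurentSeries Ω) =
        ∑ m, HahnSeries.C (c m) * coeffMap (algebraMap k Ω)
          (((⟨f j m, hf j m⟩ : FF k N) • b j : FF k N') : LaurentSeries k) := by
      intro j
      rw [hg' j, Finset.sum_smul, AddSubmonoidClass.coe_finsetSum]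
      refine Finset.sum_congr rfl fun m _ => ?_
      rw [const_mul_smul hj hconst, MulMemClass.coe_mul, coe_algebraMap_const, coe_mapFF]
    simp only [h3]
    rw [Finset.sum_comm]
    refine Finset.sum_congr rfl fun m _ => ?_
    rw [AddSubmonoidClass.coe_finsetSum, map_sum, Finset.mul_sum]
  have h4 := C.linDisj c hc _ h1
  have h5 : ∀ m, ∑ j : s, (⟨f j m, hf j m⟩ : FF k N) • b j = 0 := fun m =>
    Subtype.ext (congrFun h4 m)
  have hb' : LinearIndependent (FF k N) (fun j : s => b j) := hb.comp _ Subtype.val_injective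
  have h6 : ∀ m, ∀ j : s, (⟨f j m, hf j m⟩ : FF k N) = 0 := fun m =>
    Fintype.linearIndependent_iff.1 hb' _ (h5 m)
  rw [hg' ⟨i, hi⟩]
  refine Finset.sum_eq_zero fun m _ => ?_
  rw [h6 m ⟨i, hi⟩, map_zero, mul_zero]

/-- spanning is preserved by the extension of constants. -/
theorem span_mapFF
    (hj : ∀ x, mapFF (algebraMap k Ω) N' (algebraMap (FF k N) (FF k N') x) =
      algebraMap (FF Ω N) (FF Ω N') (mapFF (algebraMap k Ω) N x))
    (hconst : ∀ c : Ω, algebraMap (FF Ω N) (FF Ω N') (algebraMap Ω (FF Ω N) c) =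
      algebraMap Ω (FF Ω N') c)
    {I : Type*} (b : I → FF k N') (hb : ⊤ ≤ Submodule.span (FF k N) (Set.range b)) :
    ⊤ ≤ Submodule.span (FF Ω N) (Set.range fun i => mapFF (algebraMap k Ω) N' (b i)) := by
  classical
  intro u _
  have h1 : ∀ x : FF k N', mapFF (algebraMap k Ω) N' x ∈
      Submodule.span (FF Ω N) (Set.range fun i => mapFF (algebraMap k Ω) N' (b i)) := by
    intro x
    have hx : x ∈ Submodule.span (FF k N) (Set.range b) := hb trivial
    induction hx using Submodule.span_induction with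
    | mem x hx =>
      obtain ⟨i, rfl⟩ := hx
      exact Submodule.subset_span ⟨i, rfl⟩
    | zero => rw [map_zero]; exact zero_mem _
    | add x y _ _ hx hy => rw [map_add]; exact add_mem hx hy
    | smul a x _ hx =>
      rw [Algebra.smul_def, map_mul, hj, ← Algebra.smul_def]
      exact Submodule.smul_mem _ _ hx
  obtain ⟨r, c, f, -, hf, hgf⟩ := exists_comb_family (k := k) N'
    (fun _ : Unit => (u : LaurentSeries Ω)) (fun _ => u.2)
  have hu : u = ∑ m, algebraMap Ω (FF Ω N) (c m) •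
      mapFF (algebraMap k Ω) N' ⟨f () m, hf () m⟩ := by
    apply Subtype.ext
    rw [hgf (), AddSubmonoidClass.coe_finsetSum]
    refine Finset.sum_congr rfl fun m _ => ?_
    rw [Algebra.smul_def, hconst, MulMemClass.coe_mul, coe_algebraMap_const, coe_mapFF]
  rw [hu]
  exact Submodule.sum_mem _ fun m _ => Submodule.smul_mem _ _ (h1 _)

theorem exists_basis_mapFF
    (hj : ∀ x, mapFF (algebraMap k Ω) N' (algebraMap (FF k N) (FF k N') x) =
      algebraMap (FF Ω N) (FF Ω N') (mapFF (algebraMap k Ω) N x))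
    (hconst : ∀ c : Ω, algebraMap (FF Ω N) (FF Ω N') (algebraMap Ω (FF Ω N) c) =
      algebraMap Ω (FF Ω N') c)
    {I : Type*} (b : Module.Basis I (FF k N) (FF k N')) :
    ∃ bt : Module.Basis I (FF Ω N) (FF Ω N'), ∀ i, bt i = mapFF (algebraMap k Ω) N' (b i) :=
  ⟨Module.Basis.mk (linearIndependent_mapFF hj hconst b b.linearIndependent)
    (span_mapFF hj hconst b b.span_eq.ge), fun i => Module.Basis.mk_apply _ _ i⟩

/-- The field norm commutes with the extension of constants. -/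
theorem mapFF_norm_and_finrank
    (hj : ∀ x, mapFF (algebraMap k Ω) N' (algebraMap (FF k N) (FF k N') x) =
      algebraMap (FF Ω N) (FF Ω N') (mapFF (algebraMap k Ω) N x))
    (hconst : ∀ c : Ω, algebraMap (FF Ω N) (FF Ω N') (algebraMap Ω (FF Ω N) c) =
      algebraMap Ω (FF Ω N') c)
    [FiniteDimensional (FF Ω N) (FF Ω N')] :
    (∀ x : FF k N', mapFF (algebraMap k Ω) N (Algebra.norm (FF k N) x) =
      Algebra.norm (FF Ω N) (mapFF (algebraMap k Ω) N' x)) ∧
    Module.finrank (FF k N) (FF k N') = Module.finrank (FF Ω N) (FF Ω N') ∧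
    FiniteDimensional (FF k N) (FF k N') := by
  classical
  obtain ⟨I, ⟨b⟩⟩ : ∃ I : Type _, Nonempty (Module.Basis I (FF k N) (FF k N')) :=
    ⟨_, ⟨Module.Basis.ofVectorSpace (FF k N) (FF k N')⟩⟩
  obtain ⟨bt, hbt⟩ := exists_basis_mapFF hj hconst b
  have hfin : Finite I := Module.Finite.finite_basis bt
  have := Fintype.ofFinite I
  refine ⟨fun x => ?_, ?_, ?_⟩
  · exact norm_map_of_basis (mapFF (algebraMap k Ω) N) (mapFF (algebraMap k Ω) N') hj b bt hbt x
  · rw [Module.finrank_eq_card_basis b, Module.finrank_eq_card_basis bt]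
  · exact b.finiteDimensional_of_finite

end Comb

section Defs

variable (K : Type*) [Field K] (q N1 : ℕ)

/-- the inclusion `FF K (q N1) → FF K (q² N1)` as a ring homomorphism. -/
def istdK : FF K (q * N1) →+* FF K (q ^ 2 * N1) :=
  (IntermediateField.inclusion (BR8_FF_le K (⟨q, by ring⟩ : q * N1 ∣ q ^ 2 * N1))).toRingHom

/-- the inclusion `FF K (q N1) → FF K (q² N1)`. -/
def phi1 : FF K (q * N1) →ₐ[K] FF K (q ^ 2 * N1) :=
  IntermediateField.inclusion (BR8_FF_le K (⟨q, by ring⟩ : q * N1 ∣ q ^ 2 * N1))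

theorem qExpand_mem_sq [NeZero q] {u : LaurentSeries K} (hu : u ∈ FF K (q * N1)) :
    qExpand K q u ∈ FF K (q ^ 2 * N1) := by
  have h := qExpand_mem_FF q hu
  rwa [show q * (q * N1) = q ^ 2 * N1 by ring] at h

/-- the twisted inclusion `f ↦ f(t^q)` as a ring homomorphism. -/
def itwK [NeZero q] : FF K (q * N1) →+* FF K (q ^ 2 * N1) :=
  ((qExpand K q).comp (FF K (q * N1)).val.toRingHom).codRestrict (FF K (q ^ 2 * N1))
    (fun f => qExpand_mem_sq K q N1 f.2)

/-- the twisted inclusion `f ↦ f(t^q)`. -/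
def phi2 [NeZero q] : FF K (q * N1) →ₐ[K] FF K (q ^ 2 * N1) :=
  { itwK K q N1 with
    commutes' := fun c => Subtype.ext (Level_qExpand_algebraMap q c) }

/-- the field norm along the inclusion. -/
def nm1 : FF K (q ^ 2 * N1) →* FF K (q * N1) :=
  @Algebra.norm (FF K (q * N1)) (FF K (q ^ 2 * N1)) _ _ (istdK K q N1).toAlgebra

/-- the field norm along `f ↦ f(t^q)`. -/
def nm2 [NeZero q] : FF K (q ^ 2 * N1) →* FF K (q * N1) :=
  @Algebra.norm (FF K (q * N1)) (FF K (q ^ 2 * N1)) _ _ (itwK K q N1).toAlgebra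

variable {K q N1}

@[simp] theorem coe_phi1 (f : FF K (q * N1)) : (phi1 K q N1 f : LaurentSeries K) = f := by
  unfold phi1
  exact IntermediateField.coe_inclusion _ f

@[simp] theorem coe_phi2 [NeZero q] (f : FF K (q * N1)) :
    (phi2 K q N1 f : LaurentSeries K) = qExpand K q (f : LaurentSeries K) := rfl

theorem coe_istdK (f : FF K (q * N1)) : (istdK K q N1 f : LaurentSeries K) = f := by
  unfold istdK
  exact IntermediateField.coe_inclusion _ f

theorem coe_itwK [NeZero q] (f : FF K (q * N1)) :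
    (itwK K q N1 f : LaurentSeries K) = qExpand K q (f : LaurentSeries K) := rfl

theorem phi1_apply (f : FF K (q * N1)) : phi1 K q N1 f = istdK K q N1 f := rfl

theorem phi2_apply [NeZero q] (f : FF K (q * N1)) : phi2 K q N1 f = itwK K q N1 f := rfl

theorem nm1_eq_normFF (x : FF K (q ^ 2 * N1)) :
    nm1 K q N1 x = normFF K (N := q * N1) (N' := q ^ 2 * N1) ⟨q, by ring⟩ x := rfl

theorem nm2_Qb_eq [NeZero q] (x : FF Qb (q ^ 2 * N1)) :
    nm2 Qb q N1 x = Norm2_normTw q N1 x := rfl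

end Defs

section Qb

variable {q N1 : ℕ}

theorem finrank_istd_Qb (hq : q.Prime) (hN1 : N1 ≠ 0) (hqN : ¬ q ∣ N1) :
    @Module.finrank (FF Qb (q * N1)) (FF Qb (q ^ 2 * N1)) _ _
      (istdK Qb q N1).toAlgebra.toModule = q := by
  have h := Norm2_finrank_inclusion (BR8_FF_le Qb (⟨q, by ring⟩ : q * N1 ∣ q ^ 2 * N1))
  rw [relfinrank_FF_sq hq hN1 hqN] at h
  exact h

theorem finrank_itw_Qb [NeZero q] (hq : q.Prime) (hN1 : N1 ≠ 0) (hqN : ¬ q ∣ N1) :
    @Module.finrank (FF Qb (q * N1)) (FF Qb (q ^ 2 * N1)) _ _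
      (itwK Qb q N1).toAlgebra.toModule = q := by
  obtain ⟨ι⟩ : Nonempty (Qb →+* ℂ) := S24.nonempty_iotaC
  have : NeZero (q * N1) := ⟨mul_ne_zero hq.ne_zero hN1⟩
  have : NeZero (q ^ 2 * N1) := ⟨mul_ne_zero (pow_ne_zero _ hq.ne_zero) hN1⟩
  have he : (istdK Qb q N1).comp
      ((wQ Qb q N1).toRingEquiv : FF Qb (q * N1) →+* FF Qb (q * N1)) =
      ((wQ Qb (q ^ 2) N1).toRingEquiv : FF Qb (q ^ 2 * N1) →+* FF Qb (q ^ 2 * N1)).comp
        (itwK Qb q N1) := by
    refine RingHom.ext fun f => Subtype.ext ?_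
    exact (wQ_sq_qExpand ι hq hqN f (qExpand_mem_sq Qb q N1 f.2)).symm
  refine Eq.trans ?_ (finrank_istd_Qb hq hN1 hqN)
  exact @Algebra.finrank_eq_of_equiv_equiv (FF Qb (q * N1)) (FF Qb (q ^ 2 * N1)) _ _
    (itwK Qb q N1).toAlgebra (FF Qb (q * N1)) (FF Qb (q ^ 2 * N1)) _ _ (istdK Qb q N1).toAlgebra
    (wQ Qb q N1).toRingEquiv (wQ Qb (q ^ 2) N1).toRingEquiv he

end Qb

section L

variable {q N1 : ℕ} (L : IntermediateField ℚ Qb)

theorem isAlgebraic_Qb : Algebra.IsAlgebraic L Qb := by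
  have : Algebra.IsAlgebraic ℚ Qb := AlgebraicClosure.isAlgebraic ℚ
  exact Algebra.IsAlgebraic.tower_top (K := ℚ) L

theorem main1 (hq : q.Prime) (hN1 : N1 ≠ 0) (hqN : ¬ q ∣ N1) :
    (∀ x : FF L (q ^ 2 * N1), mapFF (algebraMap L Qb) (q * N1) (nm1 L q N1 x) =
      nm1 Qb q N1 (mapFF (algebraMap L Qb) (q ^ 2 * N1) x)) ∧
    @Module.finrank (FF L (q * N1)) (FF L (q ^ 2 * N1)) _ _
      (istdK L q N1).toAlgebra.toModule = q ∧
    @FiniteDimensional (FF L (q * N1)) (FF L (q ^ 2 * N1)) _ _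
      (istdK L q N1).toAlgebra.toModule := by
  have := isAlgebraic_Qb L
  let a1 : Algebra (FF L (q * N1)) (FF L (q ^ 2 * N1)) := (istdK L q N1).toAlgebra
  let a2 : Algebra (FF Qb (q * N1)) (FF Qb (q ^ 2 * N1)) := (istdK Qb q N1).toAlgebra
  have e1 : algebraMap (FF L (q * N1)) (FF L (q ^ 2 * N1)) = istdK L q N1 :=
    RingHom.algebraMap_toAlgebra _
  have e2 : algebraMap (FF Qb (q * N1)) (FF Qb (q ^ 2 * N1)) = istdK Qb q N1 :=
    RingHom.algebraMap_toAlgebra _
  have hfr : Module.finrank (FF Qb (q * N1)) (FF Qb (q ^ 2 * N1)) = q :=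
    finrank_istd_Qb hq hN1 hqN
  have : FiniteDimensional (FF Qb (q * N1)) (FF Qb (q ^ 2 * N1)) :=
    Module.finite_of_finrank_pos (by rw [hfr]; exact hq.pos)
  obtain ⟨h1, h2, h3⟩ := mapFF_norm_and_finrank (k := L) (Ω := Qb) (N := q * N1)
    (N' := q ^ 2 * N1)
    (by
      intro x
      apply Subtype.ext
      rw [e1, e2, coe_mapFF, coe_istdK, coe_istdK, coe_mapFF])
    (by
      intro c
      apply Subtype.ext
      rw [e2, coe_istdK, coe_algebraMap_const, coe_algebraMap_const])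
  exact ⟨h1, h2.trans hfr, h3⟩

theorem main2 [NeZero q] (hq : q.Prime) (hN1 : N1 ≠ 0) (hqN : ¬ q ∣ N1) :
    (∀ x : FF L (q ^ 2 * N1), mapFF (algebraMap L Qb) (q * N1) (nm2 L q N1 x) =
      nm2 Qb q N1 (mapFF (algebraMap L Qb) (q ^ 2 * N1) x)) ∧
    @Module.finrank (FF L (q * N1)) (FF L (q ^ 2 * N1)) _ _
      (itwK L q N1).toAlgebra.toModule = q ∧
    @FiniteDimensional (FF L (q * N1)) (FF L (q ^ 2 * N1)) _ _
      (itwK L q N1).toAlgebra.toModule := by
  have := isAlgebraic_Qb L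
  let a1 : Algebra (FF L (q * N1)) (FF L (q ^ 2 * N1)) := (itwK L q N1).toAlgebra
  let a2 : Algebra (FF Qb (q * N1)) (FF Qb (q ^ 2 * N1)) := (itwK Qb q N1).toAlgebra
  have e1 : algebraMap (FF L (q * N1)) (FF L (q ^ 2 * N1)) = itwK L q N1 :=
    RingHom.algebraMap_toAlgebra _
  have e2 : algebraMap (FF Qb (q * N1)) (FF Qb (q ^ 2 * N1)) = itwK Qb q N1 :=
    RingHom.algebraMap_toAlgebra _
  have hfr : Module.finrank (FF Qb (q * N1)) (FF Qb (q ^ 2 * N1)) = q :=
    finrank_itw_Qb hq hN1 hqN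
  have : FiniteDimensional (FF Qb (q * N1)) (FF Qb (q ^ 2 * N1)) :=
    Module.finite_of_finrank_pos (by rw [hfr]; exact hq.pos)
  obtain ⟨h1, h2, h3⟩ := mapFF_norm_and_finrank (k := L) (Ω := Qb) (N := q * N1)
    (N' := q ^ 2 * N1)
    (by
      intro x
      apply Subtype.ext
      rw [e1, e2, coe_mapFF, coe_itwK, coe_itwK, coe_mapFF, coeffMap_qExpand])
    (by
      intro c
      apply Subtype.ext
      rw [e2, coe_itwK, coe_algebraMap_const, coe_algebraMap_const, qExpand_C])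
  exact ⟨h1, h2.trans hfr, h3⟩

/-- (S2, first norm) -/
theorem mapFF_nm1 (hq : q.Prime) (hN1 : N1 ≠ 0) (hqN : ¬ q ∣ N1) (x : FF L (q ^ 2 * N1)) :
    mapFF (algebraMap L Qb) (q * N1) (nm1 L q N1 x) =
      normFF Qb (N := q * N1) (N' := q ^ 2 * N1) ⟨q, by ring⟩
        (mapFF (algebraMap L Qb) (q ^ 2 * N1) x) :=
  (main1 L hq hN1 hqN).1 x

/-- (S2, first norm) product formula. -/
theorem coeffMap_nm1 [NeZero (q ^ 2 * N1)] (hq : q.Prime) (hN1 : N1 ≠ 0) (hqN : ¬ q ∣ N1) (ζ : Qbˣ)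
    (hζ : IsPrimitiveRoot ζ q) (x : FF L (q ^ 2 * N1)) :
    coeffMap (algebraMap L Qb) (nm1 L q N1 x : LaurentSeries L) =
      coeffMap (algebraMap L Qb) (x : LaurentSeries L) *
        ∏ a ∈ Finset.Ico 1 q, iotaMid Qb q N1 (ζ ^ a) (mapFF (algebraMap L Qb) (q ^ 2 * N1) x) := by
  have h := congrArg (fun y : FF Qb (q * N1) => (y : LaurentSeries Qb)) (mapFF_nm1 L hq hN1 hqN x)
  simp only [coe_mapFF] at h
  rw [h, normFF_eq_prod hq hqN ζ hζ, coe_mapFF]

/-- (S2, second norm) -/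
theorem mapFF_nm2 [NeZero q] (hq : q.Prime) (hN1 : N1 ≠ 0) (hqN : ¬ q ∣ N1)
    (x : FF L (q ^ 2 * N1)) :
    mapFF (algebraMap L Qb) (q * N1) (nm2 L q N1 x) =
      nm2 Qb q N1 (mapFF (algebraMap L Qb) (q ^ 2 * N1) x) :=
  (main2 L hq hN1 hqN).1 x

theorem coe_nm2_Qb [NeZero q] (hq : q.Prime) (hN1 : N1 ≠ 0) (hqN : ¬ q ∣ N1) (ζ : Qbˣ)
    (hζ : IsPrimitiveRoot ζ q) (u : FF Qb (q ^ 2 * N1)) :
    (nm2 Qb q N1 u : LaurentSeries Qb) = normT q ζ (u : LaurentSeries Qb) := by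
  have : NeZero (q * N1) := ⟨mul_ne_zero hq.ne_zero hN1⟩
  have : NeZero (q ^ 2 * N1) := ⟨mul_ne_zero (pow_ne_zero _ hq.ne_zero) hN1⟩
  rw [nm2_Qb_eq]
  exact Norm2_normTw_eq hq hqN ζ hζ u

/-- (S2, second norm) `nm2` is `normT` on series. -/
theorem coeffMap_nm2 [NeZero q] (hq : q.Prime) (hN1 : N1 ≠ 0) (hqN : ¬ q ∣ N1) (ζ : Qbˣ)
    (hζ : IsPrimitiveRoot ζ q) (x : FF L (q ^ 2 * N1)) :
    coeffMap (algebraMap L Qb) (nm2 L q N1 x : LaurentSeries L) =
      normT q ζ (coeffMap (algebraMap L Qb) (x : LaurentSeries L)) := by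
  have h := congrArg (fun y : FF Qb (q * N1) => (y : LaurentSeries Qb)) (mapFF_nm2 L hq hN1 hqN x)
  simp only [coe_mapFF] at h
  rw [h, coe_nm2_Qb hq hN1 hqN ζ hζ, coe_mapFF]

/-- (S2, second norm) product formula. -/
theorem qExpand_coeffMap_nm2 [NeZero q] (hq : q.Prime) (hN1 : N1 ≠ 0) (hqN : ¬ q ∣ N1) (ζ : Qbˣ)
    (hζ : IsPrimitiveRoot ζ q) (x : FF L (q ^ 2 * N1)) :
    qExpand Qb q (coeffMap (algebraMap L Qb) (nm2 L q N1 x : LaurentSeries L)) =
      ∏ j ∈ Finset.range q, scaleHom (ζ ^ j) (coeffMap (algebraMap L Qb) (x : LaurentSeries L)) := by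
  rw [coeffMap_nm2 L hq hN1 hqN ζ hζ, qExpand_normT ζ hζ]

theorem finrank_istdK (hq : q.Prime) (hN1 : N1 ≠ 0) (hqN : ¬ q ∣ N1) :
    @Module.finrank (FF L (q * N1)) (FF L (q ^ 2 * N1)) _ _
      (istdK L q N1).toAlgebra.toModule = q := (main1 L hq hN1 hqN).2.1

theorem finiteDimensional_istdK (hq : q.Prime) (hN1 : N1 ≠ 0) (hqN : ¬ q ∣ N1) :
    @FiniteDimensional (FF L (q * N1)) (FF L (q ^ 2 * N1)) _ _
      (istdK L q N1).toAlgebra.toModule := (main1 L hq hN1 hqN).2.2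

theorem finrank_itwK [NeZero q] (hq : q.Prime) (hN1 : N1 ≠ 0) (hqN : ¬ q ∣ N1) :
    @Module.finrank (FF L (q * N1)) (FF L (q ^ 2 * N1)) _ _
      (itwK L q N1).toAlgebra.toModule = q := (main2 L hq hN1 hqN).2.1

theorem finiteDimensional_itwK [NeZero q] (hq : q.Prime) (hN1 : N1 ≠ 0) (hqN : ¬ q ∣ N1) :
    @FiniteDimensional (FF L (q * N1)) (FF L (q ^ 2 * N1)) _ _
      (itwK L q N1).toAlgebra.toModule := (main2 L hq hN1 hqN).2.2

theorem nm1_phi1 (hq : q.Prime) (hN1 : N1 ≠ 0) (hqN : ¬ q ∣ N1) (y : FF L (q * N1)) :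
    nm1 L q N1 (phi1 L q N1 y) = y ^ q := by
  have h := @Algebra.norm_algebraMap (FF L (q * N1)) (FF L (q ^ 2 * N1)) _ _
    (istdK L q N1).toAlgebra _ y
  rw [finrank_istdK L hq hN1 hqN] at h
  exact h

theorem nm2_phi2 [NeZero q] (hq : q.Prime) (hN1 : N1 ≠ 0) (hqN : ¬ q ∣ N1)
    (y : FF L (q * N1)) : nm2 L q N1 (phi2 L q N1 y) = y ^ q := by
  have h := @Algebra.norm_algebraMap (FF L (q * N1)) (FF L (q ^ 2 * N1)) _ _
    (itwK L q N1).toAlgebra _ y
  rw [finrank_itwK L hq hN1 hqN] at h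
  exact h

end L

end Fermat.Agent.GT.Brg
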